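/-
T3 (H), part 3 (helper5): the fundamental identity `∑ e f = n` follows from the norm formula.
-/
import Mathlib
import Fermat.Prelude.Def_AlgebraicCurve_Correspondence

set_option autoImplicit false
set_option linter.unusedSectionVars false
set_option linter.style.haveILetI false

namespace Fermat.Agent.T3

open AlgebraicCurve IsDedekindDomain WithZero

variable {K F F' : Type*} [Field K] [Field F] [Field F'] [Algebra K F] [Algebra K F']
  [Algebra F F'] [IsScalarTower K F F'] [Algebra.IsIntegral F F'] [HasPrincipalDivisors K F']
  [Module.Finite F F']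

/-- a place has a uniformizer -/
theorem t3h_exists_ord_eq_one (v : Place K F) : ∃ t : F, t ≠ 0 ∧ v.ord t = 1 := by
  obtain ⟨π, hπ⟩ := IsDiscreteValuationRing.exists_irreducible v.toValuationSubring
  refine ⟨(π : F), ?_, v.ord_coe_irreducible hπ⟩
  simpa [ne_eq, ZeroMemClass.coe_eq_zero] using hπ.ne_zero

/-- the norm formula implies `∑ e f = n` -/
theorem t3h_sumRamificationInertia (H : Divisor.PushforwardNormFormula K F F') :
    SumRamificationInertia K F F' := by
  classical
  refine ⟨fun v => ?_⟩
  obtain ⟨t, ht0, ht⟩ := t3h_exists_ord_eq_one v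
  have hf : algebraMap F F' t ≠ 0 := by simpa using ht0
  obtain ⟨D, hD, -⟩ := HasPrincipalDivisors.exists_divisor (K := K) (algebraMap F F' t) hf
  have h := H (algebraMap F F' t) hf D hD v
  rw [Algebra.norm_algebraMap, ← zpow_natCast, v.ord_zpow, ht, mul_one,
    Divisor.pushforward_apply, ← Finset.sum_filter] at h
  rw [← h]
  have hDw : ∀ w : Place K F', w.restrict F = v → D w = (w.ramificationIndex F : ℤ) := by
    intro w hw
    rw [hD, w.ord_restrict, hw, ht, mul_one]
  have hset : D.support.filter (fun w => w.restrict F = v) = v.fiber F' := by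
    ext w
    rw [Finset.mem_filter, Place.mem_fiber, Finsupp.mem_support_iff]
    constructor
    · exact fun h => h.2
    · intro hw
      refine ⟨?_, hw⟩
      rw [hDw w hw]
      have := w.ramificationIndex_pos (F := F)
      omega
  rw [hset]
  refine Finset.sum_congr rfl fun w hw => ?_
  rw [hDw w (Place.mem_fiber.mp hw)]

/-- the norm formula implies the fundamental identity -/
theorem t3h_fundamentalIdentity (H : Divisor.PushforwardNormFormula K F F') :
    FundamentalIdentity K F F' :=
  haveI := t3h_sumRamificationInertia H
  inferInstance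

end Fermat.Agent.T3
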