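/-
T3 (H), part 1 (helper5): the valuation of a norm over a discrete valuation ring.

`R` a DVR with fraction field `F`, `F'/F` finite, `S` the integral closure of `R` in `F'`
(a Dedekind domain with finitely many primes), all residue degrees `1`.  Then for `f : F'`, `f ≠ 0`,
`v_R (N_{F'/F} f) = ∏_Q v_Q f`.
-/
import Mathlib

set_option autoImplicit false
set_option linter.unusedSectionVars false
set_option linter.style.haveILetI false

namespace Fermat.Agent.T3

open IsDedekindDomain WithZero

section Prime

variable {R S : Type*} [CommRing R] [IsDomain R] [IsDiscreteValuationRing R]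
  [CommRing S] [IsDedekindDomain S] [Algebra R S] [Module.Finite R S] [Module.IsTorsionFree R S]

/-- a nonzero prime of `S` lies over the maximal ideal of the DVR `R` -/
theorem t3h_liesOver_maximalIdeal (Q : HeightOneSpectrum S) :
    Q.asIdeal.LiesOver (IsLocalRing.maximalIdeal R) := by
  constructor
  have hint : Algebra.IsIntegral R S := Algebra.IsIntegral.of_finite R S
  have hne : Q.asIdeal.under R ≠ ⊥ := by
    intro h
    exact Q.ne_bot (Ideal.eq_bot_of_comap_eq_bot h)
  have hpr : (Q.asIdeal.under R).IsPrime := Ideal.IsPrime.under R Q.asIdeal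
  have hmax : (Q.asIdeal.under R).IsMaximal := hpr.isMaximal hne
  exact (IsLocalRing.eq_maximalIdeal hmax).symm

/-- the maximal ideal of a DVR as a height one prime -/
noncomputable def t3hMax (R : Type*) [CommRing R] [IsDomain R] [IsDiscreteValuationRing R] :
    HeightOneSpectrum R :=
  IsDiscreteValuationRing.maximalIdeal R

theorem t3hMax_asIdeal : (t3hMax R).asIdeal = IsLocalRing.maximalIdeal R := rfl

/-- a finite extension of a DVR has finitely many nonzero primes -/
theorem t3h_finite_heightOneSpectrum (R S : Type*) [CommRing R] [IsDomain R]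
    [IsDiscreteValuationRing R] [CommRing S] [IsDedekindDomain S] [Algebra R S]
    [Module.Finite R S] [Module.IsTorsionFree R S] : Finite (HeightOneSpectrum S) := by
  have hfin : ((IsLocalRing.maximalIdeal R).primesOver S).Finite :=
    Algebra.QuasiFinite.finite_primesOver (IsLocalRing.maximalIdeal R)
  haveI := hfin.to_subtype
  let g : HeightOneSpectrum S → (IsLocalRing.maximalIdeal R).primesOver S :=
    fun Q => ⟨Q.asIdeal, Q.isPrime, t3h_liesOver_maximalIdeal Q⟩
  apply Finite.of_injective g
  intro Q Q' h
  exact HeightOneSpectrum.ext (congrArg Subtype.val h)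

variable [Fintype (HeightOneSpectrum S)]

/-- a Dedekind domain with finitely many primes is a PID -/
theorem t3h_isPrincipalIdealRing_of_fintype (S : Type*) [CommRing S] [IsDedekindDomain S]
    [Fintype (HeightOneSpectrum S)] : IsPrincipalIdealRing S := by
  apply IsPrincipalIdealRing.of_finite_primes
  have hfin : (Set.range (fun Q : HeightOneSpectrum S => Q.asIdeal)).Finite := Set.finite_range _
  refine (hfin.insert ⊥).subset ?_
  intro I hI
  by_cases h : I = ⊥
  · exact Set.mem_insert_iff.mpr (Or.inl h)
  · exact Set.mem_insert_iff.mpr (Or.inr ⟨⟨I, hI, h⟩, rfl⟩)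

variable [PerfectField (FractionRing R)]

/-- valuation of the integral norm of a nonzero element -/
theorem t3h_intValuation_intNorm
    (hdeg : ∀ Q : HeightOneSpectrum S, Q.asIdeal.inertiaDeg R = 1) (s : S) (hs : s ≠ 0) :
    (t3hMax R).intValuation (Algebra.intNorm R S s) = ∏ Q : HeightOneSpectrum S, Q.intValuation s := by
  classical
  haveI : IsPrincipalIdealRing S := t3h_isPrincipalIdealRing_of_fintype S
  induction s using UniqueFactorizationMonoid.induction_on_prime with
  | h₁ => exact absurd rfl hs
  | h₂ u hu =>
    have h1 : IsUnit (Algebra.intNorm R S u) := hu.map _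
    rw [HeightOneSpectrum.intValuation_eq_one_iff.mpr]
    · symm
      apply Finset.prod_eq_one
      intro Q _
      rw [HeightOneSpectrum.intValuation_eq_one_iff]
      intro hmem
      exact Q.isPrime.ne_top (Ideal.eq_top_of_isUnit_mem _ hmem hu)
    · intro hmem
      exact (t3hMax R).isPrime.ne_top (Ideal.eq_top_of_isUnit_mem _ hmem h1)
  | h₃ a p ha hp ih =>
    have ih' := ih ha
    rw [map_mul, map_mul]
    simp_rw [map_mul]
    rw [Finset.prod_mul_distrib, ih']
    congr 1
    -- the prime case
    have hp0 : p ≠ 0 := hp.ne_zero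
    let Q₀ : HeightOneSpectrum S :=
      ⟨Ideal.span {p}, (Ideal.span_singleton_prime hp0).mpr hp, by
        rw [ne_eq, Ideal.span_singleton_eq_bot]; exact hp0⟩
    haveI hlo : Q₀.asIdeal.LiesOver (IsLocalRing.maximalIdeal R) := t3h_liesOver_maximalIdeal Q₀
    haveI hQmax : Q₀.asIdeal.IsMaximal := Q₀.isMaximal
    have hrel : Ideal.relNorm R Q₀.asIdeal = IsLocalRing.maximalIdeal R := by
      rw [Ideal.relNorm_eq_pow_of_isMaximal Q₀.asIdeal (IsLocalRing.maximalIdeal R), hdeg Q₀,
        pow_one]
    have hrel' : Ideal.span {Algebra.intNorm R S p} = IsLocalRing.maximalIdeal R := by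
      rw [← Ideal.relNorm_singleton]
      exact hrel
    have hN0 : Algebra.intNorm R S p ≠ 0 := by
      intro h0
      rw [h0] at hrel'
      have : IsLocalRing.maximalIdeal R = ⊥ := by
        rw [← hrel', Ideal.span_singleton_eq_bot]
      exact (t3hMax R).ne_bot this
    rw [HeightOneSpectrum.intValuation_singleton _ hN0 (by rw [t3hMax_asIdeal, hrel'])]
    rw [Finset.prod_eq_single Q₀]
    · exact (HeightOneSpectrum.intValuation_singleton _ hp0 rfl).symm
    · intro Q _ hQ
      rw [HeightOneSpectrum.intValuation_eq_one_iff]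
      intro hmem
      apply hQ
      have hle : Q₀.asIdeal ≤ Q.asIdeal := by
        show Ideal.span {p} ≤ Q.asIdeal
        rw [Ideal.span_le, Set.singleton_subset_iff]
        exact hmem
      exact (HeightOneSpectrum.ext (hQmax.eq_of_le Q.isPrime.ne_top hle)).symm
    · intro h
      exact absurd (Finset.mem_univ _) h

variable {F F' : Type*} [Field F] [Field F'] [Algebra R F] [IsFractionRing R F] [Algebra F F']
  [FiniteDimensional F F'] [Algebra S F'] [Algebra R F'] [IsScalarTower R S F']
  [IsScalarTower R F F'] [IsFractionRing S F'] [IsIntegralClosure S R F']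

/-- valuation of the norm of an element of `S` -/
theorem t3h_valuation_norm_algebraMap
    (hdeg : ∀ Q : HeightOneSpectrum S, Q.asIdeal.inertiaDeg R = 1) (s : S) (hs : s ≠ 0) :
    (t3hMax R).valuation F (Algebra.norm F (algebraMap S F' s))
      = ∏ Q : HeightOneSpectrum S, Q.valuation F' (algebraMap S F' s) := by
  rw [← Algebra.algebraMap_intNorm (A := R) (B := S), HeightOneSpectrum.valuation_of_algebraMap,
    t3h_intValuation_intNorm hdeg s hs]
  exact Finset.prod_congr rfl fun Q _ => (HeightOneSpectrum.valuation_of_algebraMap Q s).symm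

/-- **valuation of a norm**: `v_R (N f) = ∏_Q v_Q f` -/
theorem t3h_valuation_norm
    (hdeg : ∀ Q : HeightOneSpectrum S, Q.asIdeal.inertiaDeg R = 1) (f : F') (hf : f ≠ 0) :
    (t3hMax R).valuation F (Algebra.norm F f) = ∏ Q : HeightOneSpectrum S, Q.valuation F' f := by
  obtain ⟨a, b, hb, rfl⟩ := IsFractionRing.div_surjective (A := S) f
  have hb0 : b ≠ 0 := nonZeroDivisors.ne_zero hb
  have ha0 : a ≠ 0 := by
    rintro rfl
    apply hf
    rw [map_zero, zero_div]
  have hbF : algebraMap S F' b ≠ 0 := by
    rwa [ne_eq, IsFractionRing.to_map_eq_zero_iff]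
  have hmul : algebraMap S F' a / algebraMap S F' b * algebraMap S F' b = algebraMap S F' a :=
    div_mul_cancel₀ _ hbF
  have h1 : (t3hMax R).valuation F (Algebra.norm F (algebraMap S F' a / algebraMap S F' b))
      * (t3hMax R).valuation F (Algebra.norm F (algebraMap S F' b))
      = (t3hMax R).valuation F (Algebra.norm F (algebraMap S F' a)) := by
    rw [← map_mul, ← map_mul, hmul]
  have h2 : (∏ Q : HeightOneSpectrum S, Q.valuation F' (algebraMap S F' a / algebraMap S F' b))
      * (∏ Q : HeightOneSpectrum S, Q.valuation F' (algebraMap S F' b))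
      = ∏ Q : HeightOneSpectrum S, Q.valuation F' (algebraMap S F' a) := by
    rw [← Finset.prod_mul_distrib]
    refine Finset.prod_congr rfl fun Q _ => ?_
    rw [← map_mul, hmul]
  rw [t3h_valuation_norm_algebraMap hdeg a ha0, t3h_valuation_norm_algebraMap hdeg b hb0,
    ← h2] at h1
  have hne : ∏ Q : HeightOneSpectrum S, Q.valuation F' (algebraMap S F' b) ≠ 0 := by
    rw [Finset.prod_ne_zero_iff]
    intro Q _
    exact (Valuation.ne_zero_iff _).mpr hbF
  exact mul_right_cancel₀ hne h1

end Prime

end Fermat.Agent.T3
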