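/-
T3 (H), part 2 (helper5): the places of `F'` over a place `v` of `F` are the primes of the integral
closure of `O_v` in `F'`; the norm formula `ord_v (N f) = ∑_{w ∣ v} ord_w f` over an algebraically
closed constant field of characteristic zero.
-/
import Mathlib
import Fermat.Prelude.Def_AlgebraicCurve_Correspondence
import Fermat.Agent.Lib.Curve.Global
import Fermat.Agent.Lib.T3.Hecke.NormVal

set_option autoImplicit false
set_option linter.unusedSectionVars false
set_option linter.style.haveILetI false

namespace Fermat.Agent.T3

open AlgebraicCurve IsDedekindDomain WithZero Fermat.Agent.Curve Fermat.Agent.Curve.PlaceAux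

variable {K F F' : Type*} [Field K] [Field F] [Field F'] [Algebra K F] [Algebra K F']
  [Algebra F F'] [IsScalarTower K F F'] [FiniteDimensional F F'] [Algebra.IsSeparable F F']
  (v : Place K F)

/-- the integral closure of `O_v` in `F'` -/
abbrev t3hS (F' : Type*) [Field F'] [Algebra F F'] (v : Place K F) :
    Subalgebra v.toValuationSubring F' :=
  integralClosure v.toValuationSubring F'

theorem t3hS_isDedekindDomain : IsDedekindDomain (t3hS F' v) :=
  integralClosure.isDedekindDomain v.toValuationSubring F F'

theorem t3hS_isFractionRing : IsFractionRing (t3hS F' v) F' :=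
  integralClosure.isFractionRing_of_finite_extension F F'

theorem t3hS_moduleFinite : Module.Finite v.toValuationSubring (t3hS F' v) :=
  IsIntegralClosure.finite v.toValuationSubring F F' (t3hS F' v)

@[reducible] noncomputable def t3hS_algebra : Algebra K (t3hS F' v) :=
  ((algebraMap v.toValuationSubring (t3hS F' v)).comp (algebraMap K v.toValuationSubring)).toAlgebra

attribute [local instance] t3hS_isDedekindDomain t3hS_isFractionRing t3hS_moduleFinite
  t3hS_algebra

theorem t3hS_isScalarTower : IsScalarTower K (t3hS F' v) F' :=
  IsScalarTower.of_algebraMap_eq fun a => by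
    show algebraMap K F' a = algebraMap F F' (algebraMap K F a)
    rw [← IsScalarTower.algebraMap_apply]

attribute [local instance] t3hS_isScalarTower

@[reducible] noncomputable def t3hS_fintype : Fintype (HeightOneSpectrum (t3hS F' v)) :=
  haveI := t3h_finite_heightOneSpectrum v.toValuationSubring (t3hS F' v)
  Fintype.ofFinite _

attribute [local instance] t3hS_fintype

/-- the place of `F'` attached to a prime of the integral closure of `O_v` -/
noncomputable def t3hPlace (Q : HeightOneSpectrum (t3hS F' v)) : Place K F' :=
  Place.ofHeightOneSpectrum (K := K) Q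

theorem t3hPlace_adicValuation (Q : HeightOneSpectrum (t3hS F' v)) (f : F') :
    (t3hPlace v Q).adicValuation f = Q.valuation F' f :=
  ofHeightOneSpectrum_adicValuation Q f

theorem t3hPlace_restrict (Q : HeightOneSpectrum (t3hS F' v)) :
    (t3hPlace v Q).restrict F = v := by
  symm
  apply eq_of_le
  intro a ha
  rw [Place.restrict_toValuationSubring, ValuationSubring.mem_comap, t3hPlace,
    Place.ofHeightOneSpectrum_toValuationSubring, Valuation.mem_valuationSubring_iff]
  exact Q.valuation_le_one (algebraMap v.toValuationSubring (t3hS F' v) ⟨a, ha⟩)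

theorem t3h_mem_iff_ordGE (Q : HeightOneSpectrum (t3hS F' v)) (b : t3hS F' v) :
    b ∈ Q.asIdeal ↔ OrdGE (t3hPlace v Q) (algebraMap (t3hS F' v) F' b) 1 := by
  rw [OrdGE, t3hPlace_adicValuation, HeightOneSpectrum.valuation_of_algebraMap]
  have h := Q.intValuation_le_pow_iff_mem b 1
  rw [pow_one] at h
  exact h.symm

theorem t3hPlace_injective : Function.Injective (t3hPlace (F' := F') v) := by
  intro Q Q' h
  apply HeightOneSpectrum.ext
  ext b
  rw [t3h_mem_iff_ordGE, t3h_mem_iff_ordGE, h]

/-- the integral closure of `O_v` lies in the valuation ring of every place over `v` -/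
theorem t3hS_le (w : Place K F') (hw : w.restrict F = v) (b : t3hS F' v) :
    algebraMap (t3hS F' v) F' b ∈ w.toValuationSubring := by
  apply mem_of_isIntegral_of_algebraMap_mem w (R := v.toValuationSubring) _ b.2
  intro r
  have hr : (r : F) ∈ (w.restrict F).toValuationSubring := by
    rw [hw]; exact r.2
  exact hr

theorem t3hPlace_surjective (w : Place K F') (hw : w.restrict F = v) :
    ∃ Q : HeightOneSpectrum (t3hS F' v), t3hPlace v Q = w :=
  ⟨centre w (t3hS_le v w hw), (eq_ofHeightOneSpectrum_centre w (t3hS_le v w hw)).symm⟩

theorem t3hPlace_range :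
    Set.range (t3hPlace (F' := F') v) = {w : Place K F' | w.restrict F = v} := by
  ext w
  constructor
  · rintro ⟨Q, rfl⟩
    exact t3hPlace_restrict v Q
  · intro hw
    exact t3hPlace_surjective v w hw

section AlgClosed

variable [IsAlgClosed K]

/-- over an algebraically closed constant field all residue degrees are one -/
theorem t3h_inertiaDeg_eq_one {x' : F'} (hx' : IsFunctionFieldGen K F' x')
    (Q : HeightOneSpectrum (t3hS F' v)) :
    Q.asIdeal.inertiaDeg v.toValuationSubring = 1 := by
  haveI hlo : Q.asIdeal.LiesOver (IsLocalRing.maximalIdeal v.toValuationSubring) :=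
    t3h_liesOver_maximalIdeal Q
  haveI hmax : Q.asIdeal.IsMaximal := Q.isMaximal
  rw [Ideal.inertiaDeg_eq_of_isMaximal (IsLocalRing.maximalIdeal v.toValuationSubring) Q.asIdeal]
  apply finrank_quotient_eq_one_of_forall_exists
  intro b
  have hb : algebraMap (t3hS F' v) F' b ∈ (t3hPlace v Q).toValuationSubring :=
    t3hS_le v _ (t3hPlace_restrict v Q) b
  obtain ⟨c, hc⟩ := exists_const_ordGE_one hx' (t3hPlace v Q) hb
  refine ⟨algebraMap K v.toValuationSubring c, ?_⟩
  rw [t3h_mem_iff_ordGE]
  have heq : algebraMap (t3hS F' v) F'
      (b - algebraMap v.toValuationSubring (t3hS F' v) (algebraMap K v.toValuationSubring c))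
      = algebraMap (t3hS F' v) F' b - algebraMap K F' c := by
    rw [map_sub]
    congr 1
    show algebraMap F F' (algebraMap K F c) = algebraMap K F' c
    rw [← IsScalarTower.algebraMap_apply]
  rw [heq]
  exact hc

theorem t3h_log_prod {ι : Type*} (s : Finset ι) (g : ι → ℤᵐ⁰) (hg : ∀ i ∈ s, g i ≠ 0) :
    log (∏ i ∈ s, g i) = ∑ i ∈ s, log (g i) := by
  classical
  induction s using Finset.induction_on with
  | empty => simp
  | insert a s ha ih =>
    rw [Finset.prod_insert ha, Finset.sum_insert ha,
      log_mul (hg a (Finset.mem_insert_self a s))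
        (Finset.prod_ne_zero_iff.mpr fun i hi => hg i (Finset.mem_insert_of_mem hi)),
      ih fun i hi => hg i (Finset.mem_insert_of_mem hi)]

variable [CharZero K]

theorem t3h_adicValuation_norm {x' : F'} (hx' : IsFunctionFieldGen K F' x') (f : F')
    (hf : f ≠ 0) :
    v.adicValuation (Algebra.norm F f)
      = ∏ Q : HeightOneSpectrum (t3hS F' v), (t3hPlace v Q).adicValuation f := by
  haveI : CharZero F := charZero_of_injective_algebraMap (algebraMap K F).injective
  haveI : CharZero v.toValuationSubring :=
    charZero_of_injective_algebraMap (algebraMap K v.toValuationSubring).injective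
  haveI : CharZero (FractionRing v.toValuationSubring) :=
    charZero_of_injective_algebraMap (IsFractionRing.injective v.toValuationSubring _)
  have h := t3h_valuation_norm (R := v.toValuationSubring) (S := t3hS F' v) (F := F) (F' := F')
    (t3h_inertiaDeg_eq_one v hx') f hf
  rw [show v.adicValuation = (t3hMax v.toValuationSubring).valuation F from rfl, h]
  exact Finset.prod_congr rfl fun Q _ => (t3hPlace_adicValuation v Q f).symm

/-- **norm formula at a place** -/
theorem t3h_ord_norm {x' : F'} (hx' : IsFunctionFieldGen K F' x') (f : F') (hf : f ≠ 0) :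
    v.ord (Algebra.norm F f) = ∑ Q : HeightOneSpectrum (t3hS F' v), (t3hPlace v Q).ord f := by
  rw [Place.ord, t3h_adicValuation_norm v hx' f hf, t3h_log_prod, ← Finset.sum_neg_distrib]
  · rfl
  · intro Q _
    exact (t3hPlace v Q).adicValuation_ne_zero hf

omit [FiniteDimensional F F'] [Algebra.IsSeparable F F'] [CharZero K] in
/-- over an algebraically closed constant field all relative residue degrees are one -/
theorem t3h_place_inertiaDeg_eq_one [Algebra.IsIntegral F F'] {x' : F'}
    (hx' : IsFunctionFieldGen K F' x') (w : Place K F') : w.inertiaDeg F = 1 := by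
  have h := w.deg_restrict_mul_inertiaDeg (F := F)
  rw [deg_eq_one hx' w] at h
  exact Nat.eq_one_of_mul_eq_one_left h

/-- **the norm formula** `f_* div(f) = div(N f)` -/
theorem t3h_pushforwardNormFormula {x' : F'} (hx' : IsFunctionFieldGen K F' x') :
    Divisor.PushforwardNormFormula K F F' := by
  classical
  intro f hf D hD v
  rw [Divisor.pushforward_apply, t3h_ord_norm v hx' f hf, ← Finset.sum_filter]
  have h1 : ∑ Q : HeightOneSpectrum (t3hS F' v), (t3hPlace v Q).ord f
      = ∑ w ∈ Finset.univ.image (t3hPlace (F' := F') v), w.ord f :=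
    (Finset.sum_image (f := fun w : Place K F' => w.ord f) (g := t3hPlace (F' := F') v)
      (s := Finset.univ) fun Q _ Q' _ h => t3hPlace_injective v h).symm
  rw [h1]
  have hsub : D.support.filter (fun w => w.restrict F = v)
      ⊆ Finset.univ.image (t3hPlace (F' := F') v) := by
    intro w hw
    rw [Finset.mem_filter] at hw
    obtain ⟨Q, hQ⟩ := t3hPlace_surjective v w hw.2
    exact Finset.mem_image.mpr ⟨Q, Finset.mem_univ _, hQ⟩
  rw [← Finset.sum_subset hsub]
  · refine Finset.sum_congr rfl fun w _ => ?_
    rw [t3h_place_inertiaDeg_eq_one hx' w, Nat.cast_one, mul_one, hD w]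
  · intro w hw hw'
    obtain ⟨Q, -, rfl⟩ := Finset.mem_image.mp hw
    rw [Finset.mem_filter, not_and_or] at hw'
    rcases hw' with h | h
    · rw [Finsupp.mem_support_iff, not_not, hD] at h
      exact h
    · exact absurd (t3hPlace_restrict v Q) h

end AlgClosed

end Fermat.Agent.T3
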