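/-
T3 (H), part 4 (helper5): for a `K`-algebra homomorphism `φ : F → F'` of function fields in one
variable over an algebraically closed field of characteristic zero: `F'` is finite over `φ F`,
the fundamental identity and the norm formula hold along `φ`.
-/
import Mathlib
import Fermat.Prelude.Def_AlgebraicCurve_Correspondence
import Fermat.Agent.Lib.Curve.Global
import Fermat.Agent.Lib.T3.Hecke.Local
import Fermat.Agent.Lib.T3.Hecke.Fund

set_option autoImplicit false
set_option linter.unusedSectionVars false
set_option linter.style.haveILetI false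

namespace Fermat.Agent.T3

open AlgebraicCurve IsDedekindDomain WithZero Fermat.Agent.Curve IntermediateField

variable {K F F' : Type*} [Field K] [Field F] [Field F'] [Algebra K F] [Algebra K F']

/-- the image of a transcendental element under an algebra homomorphism of fields is
transcendental -/
theorem t3h_transcendental_map (φ : F →ₐ[K] F') {x : F} (hx : Transcendental K x) :
    Transcendental K (φ x) := by
  intro h
  apply hx
  obtain ⟨p, hp0, hp⟩ := h
  refine ⟨p, hp0, ?_⟩
  apply φ.toRingHom.injective
  rw [map_zero]
  show φ (Polynomial.aeval x p) = 0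
  rw [← Polynomial.aeval_algHom_apply]
  exact hp

/-- a function field is finite over the image of a function field -/
theorem t3h_finiteAlong {x : F} (hx : IsFunctionFieldGen K F x) {x' : F'}
    (hx' : IsFunctionFieldGen K F' x') (φ : F →ₐ[K] F') : FiniteAlong K φ := by
  letI := algebraAlong φ
  show Module.Finite F F'
  haveI : IsFunctionField1 K F' := IsFunctionField1.of_finite hx'.transcendental hx'.finite
  have htr : Transcendental K (φ x) := t3h_transcendental_map φ hx.transcendental
  haveI : FiniteDimensional K⟮φ x⟯ F' := finiteDimensional_adjoin_simple_of_transcendental htr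
  obtain ⟨s, hs⟩ := (Module.Finite.fg_top (R := K⟮φ x⟯) (M := F'))
  refine ⟨⟨s, ?_⟩⟩
  rw [eq_top_iff]
  intro y hytop
  clear hytop
  have hy : y ∈ Submodule.span K⟮φ x⟯ (s : Set F') := by rw [hs]; trivial
  induction hy using Submodule.span_induction with
  | mem y hy => exact Submodule.subset_span hy
  | zero => exact Submodule.zero_mem _
  | add y z _ _ hy hz => exact Submodule.add_mem _ hy hz
  | smul c y _ hy =>
    have hc : (c : F') ∈ φ.fieldRange := by
      have hle : K⟮φ x⟯ ≤ φ.fieldRange := by
        rw [adjoin_simple_le_iff]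
        exact ⟨x, rfl⟩
      exact hle c.2
    obtain ⟨a, ha⟩ := hc
    have : c • y = a • y := by
      rw [Algebra.smul_def, Algebra.smul_def]
      show (c : F') * y = φ a * y
      rw [← ha]
      rfl
    rw [this]
    exact Submodule.smul_mem _ a hy

theorem t3h_isIntegralAlong {x : F} (hx : IsFunctionFieldGen K F x) {x' : F'}
    (hx' : IsFunctionFieldGen K F' x') (φ : F →ₐ[K] F') : φ.toRingHom.IsIntegral := by
  letI := algebraAlong φ
  haveI : Module.Finite F F' := t3h_finiteAlong hx hx' φ
  intro y
  exact Algebra.IsIntegral.isIntegral (R := F) y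

variable [IsAlgClosed K] [CharZero K]

theorem t3h_normFormulaAlong {x' : F'}
    (hx' : IsFunctionFieldGen K F' x') (φ : F →ₐ[K] F') (hfin : FiniteAlong K φ) :
    NormFormulaAlong K φ hfin := by
  letI := algebraAlong φ
  haveI := isScalarTower_along φ
  haveI : Module.Finite F F' := hfin
  haveI : CharZero F := charZero_of_injective_algebraMap (algebraMap K F).injective
  show Divisor.PushforwardNormFormula K F F'
  exact t3h_pushforwardNormFormula hx'

theorem t3h_fundamentalIdentityAlong {x : F} (hx : IsFunctionFieldGen K F x) {x' : F'}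
    (hx' : IsFunctionFieldGen K F' x') (φ : F →ₐ[K] F') (hφ : φ.toRingHom.IsIntegral)
    [HasPrincipalDivisors K F'] :
    FundamentalIdentityAlong K φ hφ := by
  letI := algebraAlong φ
  haveI := isScalarTower_along φ
  haveI := isIntegral_along φ hφ
  haveI : Module.Finite F F' := t3h_finiteAlong hx hx' φ
  haveI : CharZero F := charZero_of_injective_algebraMap (algebraMap K F).injective
  show FundamentalIdentity K F F'
  exact t3h_fundamentalIdentity (t3h_pushforwardNormFormula hx')

omit [CharZero K] in
/-- all relative residue degrees are one -/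
theorem t3h_inertiaDegAlong_eq_one {x' : F'} (hx' : IsFunctionFieldGen K F' x')
    (φ : F →ₐ[K] F') (hφ : φ.toRingHom.IsIntegral) (W : Place K F') :
    W.inertiaDegAlong φ hφ = 1 := by
  letI := algebraAlong φ
  haveI := isScalarTower_along φ
  haveI := isIntegral_along φ hφ
  exact t3h_place_inertiaDeg_eq_one hx' W

omit [CharZero K] in
/-- the correspondence `ψ_* φ^*` on a single place -/
theorem t3h_correspondence_single [HasPrincipalDivisors K F'] {x' : F'}
    (hx' : IsFunctionFieldGen K F' x') (φ ψ : F →ₐ[K] F') (hφ : φ.toRingHom.IsIntegral)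
    (hψ : ψ.toRingHom.IsIntegral) (v : Place K F) (n : ℤ) :
    Divisor.correspondence φ ψ hφ hψ (Finsupp.single v n)
      = ∑ W ∈ Place.fiberAlong φ hφ v,
          Finsupp.single (W.restrictAlong ψ hψ) (n * W.ramificationIndexAlong φ) := by
  rw [Divisor.correspondence_apply, Divisor.pullbackAlong_single, map_sum]
  refine Finset.sum_congr rfl fun W _ => ?_
  rw [Divisor.pushforwardAlong_single, t3h_inertiaDegAlong_eq_one hx' ψ hψ W, Nat.cast_one,
    mul_one]

/-- the fundamental identity along `φ` with all degrees one: `∑_{W ∣ v} e(W) = [F' : φ F]` -/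
theorem t3h_sum_ramificationIndexAlong [HasPrincipalDivisors K F'] {x : F}
    (hx : IsFunctionFieldGen K F x) {x' : F'} (hx' : IsFunctionFieldGen K F' x')
    (φ : F →ₐ[K] F') (hφ : φ.toRingHom.IsIntegral) (v : Place K F) :
    ∑ W ∈ Place.fiberAlong φ hφ v, (W.ramificationIndexAlong φ : ℤ) = finrankAlong K φ := by
  have hFI := t3h_fundamentalIdentityAlong hx hx' φ hφ
  letI := algebraAlong φ
  haveI := isScalarTower_along φ
  haveI := isIntegral_along φ hφ
  haveI : FundamentalIdentity K F F' := hFI
  have h := FundamentalIdentity.sum_ramificationIndex_mul_deg (K := K) (F := F) (F' := F') v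
  rw [PlaceAux.deg_eq_one hx v, Nat.cast_one, mul_one] at h
  show ∑ W ∈ Place.fiber F' v, (W.ramificationIndex F : ℤ) = (Module.finrank F F' : ℤ)
  rw [← h]
  refine Finset.sum_congr rfl fun W _ => ?_
  rw [PlaceAux.deg_eq_one hx' W, Nat.cast_one, mul_one]

end Fermat.Agent.T3
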