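/-
T3 (H), part 5 (helper5): `HeckeInputsAlong (AlgebraicClosure ℚ) N ℓ` — the two degeneracy maps
`α, β : F_N → F_{N ℓ}` of modular function fields over `ℚ̄` are finite, and satisfy the
fundamental identity and the norm formula; hence `heckeOperatorAlong` is the true Hecke
correspondence `α_* β^*`.
-/
import Mathlib
import Fermat.Prelude.Def_ModularCurve_HeckeOperatorTotal
import Fermat.Agent.Lib.S24.Count
import Fermat.Agent.Lib.T3.Hecke.Along

set_option autoImplicit false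
set_option linter.unusedSectionVars false
set_option linter.style.haveILetI false

namespace Fermat.Agent.T3

open AlgebraicCurve ModularCurve Fermat.Agent.Curve

local notation "Qb" => AlgebraicClosure ℚ

variable (N ℓ : ℕ) [NeZero N] [NeZero ℓ]

theorem t3h_gen : IsFunctionFieldGen Qb ↥(laurentBaseChange Qb (modularFunctionFieldFull N))
    (Fermat.Agent.S24Lib.jBar N) :=
  Fermat.Agent.S24Lib.isFunctionFieldGen_jBar N

instance t3h_hasPrincipalDivisors :
    HasPrincipalDivisors Qb ↥(laurentBaseChange Qb (modularFunctionFieldFull N)) :=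
  Fermat.Agent.Curve.hasPrincipalDivisors (t3h_gen N)

theorem t3h_alphaIntegral : HeckeAlphaBarIntegral Qb N ℓ :=
  t3h_isIntegralAlong (t3h_gen N) (t3h_gen (N * ℓ)) (heckeAlphaBar Qb N ℓ)

theorem t3h_betaIntegral : HeckeBetaBarIntegral Qb N ℓ :=
  t3h_isIntegralAlong (t3h_gen N) (t3h_gen (N * ℓ)) (heckeBetaBar Qb N ℓ)

theorem t3h_alphaFinite : FiniteAlong Qb (heckeAlphaBar Qb N ℓ) :=
  t3h_finiteAlong (t3h_gen N) (t3h_gen (N * ℓ)) (heckeAlphaBar Qb N ℓ)

theorem t3h_betaFinite : FiniteAlong Qb (heckeBetaBar Qb N ℓ) :=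
  t3h_finiteAlong (t3h_gen N) (t3h_gen (N * ℓ)) (heckeBetaBar Qb N ℓ)

theorem t3h_betaFundamental :
    FundamentalIdentityAlong Qb (heckeBetaBar Qb N ℓ) (t3h_betaIntegral N ℓ) :=
  t3h_fundamentalIdentityAlong (t3h_gen N) (t3h_gen (N * ℓ)) (heckeBetaBar Qb N ℓ)
    (t3h_betaIntegral N ℓ)

theorem t3h_alphaFundamental :
    FundamentalIdentityAlong Qb (heckeAlphaBar Qb N ℓ) (t3h_alphaIntegral N ℓ) :=
  t3h_fundamentalIdentityAlong (t3h_gen N) (t3h_gen (N * ℓ)) (heckeAlphaBar Qb N ℓ)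
    (t3h_alphaIntegral N ℓ)

theorem t3h_alphaNorm :
    NormFormulaAlong Qb (heckeAlphaBar Qb N ℓ) (t3h_alphaFinite N ℓ) :=
  t3h_normFormulaAlong (t3h_gen (N * ℓ)) (heckeAlphaBar Qb N ℓ) (t3h_alphaFinite N ℓ)

theorem t3h_betaNorm :
    NormFormulaAlong Qb (heckeBetaBar Qb N ℓ) (t3h_betaFinite N ℓ) :=
  t3h_normFormulaAlong (t3h_gen (N * ℓ)) (heckeBetaBar Qb N ℓ) (t3h_betaFinite N ℓ)

/-- **(H)**: the inputs of the Hecke correspondence `T_ℓ = α_* β^*` on `J₀(N)` over `ℚ̄` -/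
theorem t3h_heckeInputsAlong : HeckeInputsAlong Qb N ℓ :=
  heckeInputsAlong_intro (t3h_alphaIntegral N ℓ) (t3h_betaIntegral N ℓ)
    (t3h_betaFundamental N ℓ) (t3h_alphaFinite N ℓ) (t3h_alphaNorm N ℓ)

/-- `heckeOperatorAlong` is the true Hecke correspondence -/
theorem t3h_heckeOperatorAlong_eq :
    heckeOperatorAlong Qb N ℓ = heckePic0Bar (t3h_alphaIntegral N ℓ) (t3h_betaIntegral N ℓ)
      (t3h_betaFundamental N ℓ) (t3h_alphaFinite N ℓ) (t3h_alphaNorm N ℓ) :=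
  heckeOperatorAlong_eq _ _ _ _ _

/-- `T_ℓ` on the class of a divisor of degree zero: `T_ℓ [D] = [α_* β^* D]` -/
theorem t3h_heckeOperatorAlong_mk
    (D : Divisor.degZero (K := Qb) (F := ↥(laurentBaseChange Qb (modularFunctionFieldFull N)))) :
    heckeOperatorAlong Qb N ℓ (Pic0.mk D)
      = Pic0.mk ⟨heckeDivBar (t3h_alphaIntegral N ℓ) (t3h_betaIntegral N ℓ) (D : Divisor Qb _),
          Divisor.correspondence_mem_degZero _ _ _ _ (t3h_betaFundamental N ℓ) D.2⟩ := by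
  rw [t3h_heckeOperatorAlong_eq]
  rfl

/-- the transposed inputs (for `heckePic0BarTranspose`) -/
theorem t3h_transposeInputs :
    ∃ (hα : HeckeAlphaBarIntegral Qb N ℓ) (_ : HeckeBetaBarIntegral Qb N ℓ)
      (_ : HasPrincipalDivisors Qb ↥(laurentBaseChange Qb (modularFunctionFieldFull (N * ℓ))))
      (hfin : FiniteAlong Qb (heckeBetaBar Qb N ℓ)),
      FundamentalIdentityAlong Qb (heckeAlphaBar Qb N ℓ) hα ∧
        NormFormulaAlong Qb (heckeBetaBar Qb N ℓ) hfin := by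
  exact ⟨t3h_alphaIntegral N ℓ, t3h_betaIntegral N ℓ, inferInstance, t3h_betaFinite N ℓ,
    t3h_alphaFundamental N ℓ, t3h_betaNorm N ℓ⟩

end Fermat.Agent.T3
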