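/-
T3 (K), part 0 (helper7): a norm is the product over a complete list of embeddings into ANY field
(not necessarily algebraically closed): if `τ i : F' →+* L` (`i : ι`) are pairwise distinct ring
homomorphisms restricting to the same `base : F →+* L` on `F`, and `#ι = [F' : F]`, then
`base (N_{F'/F} x) = ∏ i, τ i x`.
-/
import Mathlib

set_option autoImplicit false

namespace Fermat.Agent.T3

/-- the norm as a product over a complete list of embeddings into an arbitrary field -/
theorem t3k_norm_eq_prod_of_embeddings {F F' L : Type*} [Field F] [Field F'] [Field L]
    [Algebra F F'] [FiniteDimensional F F'] [Algebra.IsSeparable F F']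
    (base : F →+* L) {ι : Type*} [Fintype ι] (τ : ι → F' →+* L)
    (hτ : ∀ (i : ι) (x : F), τ i (algebraMap F F' x) = base x)
    (hinj : Function.Injective τ) (hcard : Fintype.card ι = Module.finrank F F') (x : F') :
    base (Algebra.norm F x) = ∏ i, τ i x := by
  classical
  letI : Algebra F (AlgebraicClosure L) :=
    ((algebraMap L (AlgebraicClosure L)).comp base).toAlgebra
  let σ : ι → (F' →ₐ[F] AlgebraicClosure L) := fun i =>
    { toRingHom := (algebraMap L (AlgebraicClosure L)).comp (τ i)
      commutes' := fun a => by
        show algebraMap L (AlgebraicClosure L) (τ i (algebraMap F F' a))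
          = algebraMap L (AlgebraicClosure L) (base a)
        rw [hτ] }
  have hσ : ∀ i y, σ i y = algebraMap L (AlgebraicClosure L) (τ i y) := fun _ _ => rfl
  have hσinj : Function.Injective σ := by
    intro i j hij
    apply hinj
    ext y
    have h1 := DFunLike.congr_fun hij y
    rw [hσ, hσ] at h1
    exact (algebraMap L (AlgebraicClosure L)).injective h1
  have hbij : Function.Bijective σ := by
    rw [Fintype.bijective_iff_injective_and_card]
    exact ⟨hσinj, by rw [hcard, AlgHom.card]⟩
  have h1 := Algebra.norm_eq_prod_embeddings F (AlgebraicClosure L) x
  rw [← Function.Bijective.prod_comp hbij (fun s : F' →ₐ[F] AlgebraicClosure L => s x)] at h1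
  apply (algebraMap L (AlgebraicClosure L)).injective
  rw [map_prod]
  exact h1

end Fermat.Agent.T3
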