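/-
T3 (K), part 1 (helper7): the `ℓ + 1` embeddings of `F_{Nℓ}` over `α F_N` (resp. `β F_N`) into
`ℚ̄((q))` and the resulting formula for the norms `N_α`, `N_β : F_{Nℓ} → F_N`
(`ℓ ∤ N` prime, `w` = lead's Atkin–Lehner involution `t2w`):

  `(N_α f)(q^ℓ) = f(q^ℓ) · ∏_{b<ℓ} (w f)(ζ^b q)`,   `N_β f = N_α (w f)`.
-/
import Mathlib
import Fermat.Agent.Lib.T3.Hecke.EmbGen
import Fermat.Agent.Lib.T3.Hecke.Modular
import Fermat.Agent.Lib.T2.AL.Main
import Fermat.Agent.Lib.T1.Kron.Hecke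
import Fermat.Agent.Lib.S24.Count
import Fermat.Agent.Lib.Igusa.PsiStep
import Fermat.Agent.Lib.Igusa.ModPolyIntegral

set_option autoImplicit false
set_option linter.unusedSectionVars false
set_option linter.style.haveILetI false
set_option linter.unusedVariables false

namespace Fermat.Agent.T3

open ModularCurve AlgebraicCurve IntermediateField HahnSeries Module
open Fermat.Agent.T1 Fermat.Agent.T2 Fermat.Agent.S24Lib Fermat.Agent.T1.KMod

local notation "Qb" => AlgebraicClosure ℚ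

section Finrank

variable (N ℓ : ℕ) [NeZero N] [hℓ : Fact ℓ.Prime] (h : ¬ ℓ ∣ N)

theorem t3k_alpha_jBar : heckeAlphaBar Qb N ℓ (jBar N) = jBar (N * ℓ) := Subtype.ext rfl

include h in
/-- `[F_{Nℓ} : α F_N] = ℓ + 1` -/
theorem t3k_finrank_alpha : finrankAlong Qb (heckeAlphaBar Qb N ℓ) = ℓ + 1 := by
  letI := algebraAlong (heckeAlphaBar Qb N ℓ)
  show finrank ↥(modularFunctionFieldBar N) ↥(modularFunctionFieldBar (N * ℓ)) = ℓ + 1
  set K₀ : IntermediateField Qb ↥(modularFunctionFieldBar N) := Qb⟮jBar N⟯ with hK₀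
  letI : Algebra K₀ ↥(modularFunctionFieldBar (N * ℓ)) :=
    ((heckeAlphaBar Qb N ℓ).toRingHom.comp (algebraMap K₀ ↥(modularFunctionFieldBar N))).toAlgebra
  haveI : IsScalarTower K₀ ↥(modularFunctionFieldBar N) ↥(modularFunctionFieldBar (N * ℓ)) :=
    IsScalarTower.of_algebraMap_eq (fun _ => rfl)
  have h1 : finrank K₀ ↥(modularFunctionFieldBar N)
      * finrank ↥(modularFunctionFieldBar N) ↥(modularFunctionFieldBar (N * ℓ))
      = finrank K₀ ↥(modularFunctionFieldBar (N * ℓ)) :=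
    Module.finrank_mul_finrank K₀ _ _
  have hmap : K₀.map (heckeAlphaBar Qb N ℓ) = Qb⟮jBar (N * ℓ)⟯ := by
    rw [hK₀, IntermediateField.adjoin_map, Set.image_singleton, t3k_alpha_jBar]
  let i : K₀ ≃ₐ[Qb] Qb⟮jBar (N * ℓ)⟯ :=
    (K₀.equivMap (heckeAlphaBar Qb N ℓ)).trans (IntermediateField.equivOfEq hmap)
  have h2 : finrank K₀ ↥(modularFunctionFieldBar (N * ℓ))
      = finrank Qb⟮jBar (N * ℓ)⟯ ↥(modularFunctionFieldBar (N * ℓ)) := by
    refine Algebra.finrank_eq_of_equiv_equiv i.toRingEquiv (RingEquiv.refl _) ?_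
    ext z
    rfl
  rw [h2, finrank_jBar, finrank_jBar, Fermat.Agent.Igusa.igPsi_mul_prime_of_not_dvd hℓ.out h] at h1
  have hpos : 0 < dedekindPsi N := by
    have := finrank_jBar N
    rw [← this]
    haveI : FiniteDimensional ↥Qb⟮jBar N⟯ ↥(modularFunctionFieldBar N) :=
      (isFunctionFieldGen_jBar N).finite
    exact Module.finrank_pos
  exact Nat.eq_of_mul_eq_mul_left hpos h1

include h in
/-- `[F_{Nℓ} : β F_N] = ℓ + 1` -/
theorem t3k_finrank_beta : finrankAlong Qb (heckeBetaBar Qb N ℓ) = ℓ + 1 := by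
  rw [← t3k_finrank_alpha N ℓ h]
  show @finrank ↥(modularFunctionFieldBar N) ↥(modularFunctionFieldBar (N * ℓ)) _ _
      (algebraAlong (heckeBetaBar Qb N ℓ)).toModule
    = @finrank ↥(modularFunctionFieldBar N) ↥(modularFunctionFieldBar (N * ℓ)) _ _
      (algebraAlong (heckeAlphaBar Qb N ℓ)).toModule
  symm
  refine @Algebra.finrank_eq_of_equiv_equiv _ _ _ _ (algebraAlong (heckeAlphaBar Qb N ℓ)) _ _ _ _
    (algebraAlong (heckeBetaBar Qb N ℓ)) (RingEquiv.refl _) (t2w Qb N ℓ h).toRingEquiv ?_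
  refine RingHom.ext (fun z => ?_)
  exact (t2w_alpha Qb N ℓ h z).symm

end Finrank

section Emb

variable (N ℓ : ℕ) [NeZero N] [hℓ : Fact ℓ.Prime] (h : ¬ ℓ ∣ N)

/-- the base embedding `x ↦ x(q^ℓ)` of `F_N` into `ℚ̄((q))` -/
noncomputable def t3kBase : ↥(modularFunctionFieldBar N) →+* LaurentSeries Qb :=
  (qExpand Qb ℓ).comp (algebraMap ↥(modularFunctionFieldBar N) (LaurentSeries Qb))

theorem t3kBase_apply (x : ↥(modularFunctionFieldBar N)) :
    t3kBase N ℓ x = qExpand Qb ℓ (x : LaurentSeries Qb) := rfl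

theorem t3kBase_injective : Function.Injective (t3kBase N ℓ) := RingHom.injective _

/-- the embedding `τ_∞ : f ↦ f(q^ℓ)` of `F_{Nℓ}` -/
noncomputable def t3kInf : ↥(modularFunctionFieldBar (N * ℓ)) →+* LaurentSeries Qb :=
  (qExpand Qb ℓ).comp (algebraMap ↥(modularFunctionFieldBar (N * ℓ)) (LaurentSeries Qb))

theorem t3kInf_apply (f : ↥(modularFunctionFieldBar (N * ℓ))) :
    t3kInf N ℓ f = qExpand Qb ℓ (f : LaurentSeries Qb) := rfl

/-- the embedding `τ_c : f ↦ (w f)(c q)` of `F_{Nℓ}` -/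
noncomputable def t3kTw (c : Qbˣ) : ↥(modularFunctionFieldBar (N * ℓ)) →+* LaurentSeries Qb :=
  (tkrTw c).comp ((algebraMap ↥(modularFunctionFieldBar (N * ℓ)) (LaurentSeries Qb)).comp
    ((t2w Qb N ℓ h : ↥(modularFunctionFieldBar (N * ℓ)) ≃ₐ[Qb] ↥(modularFunctionFieldBar (N * ℓ))) :
      ↥(modularFunctionFieldBar (N * ℓ)) →+* ↥(modularFunctionFieldBar (N * ℓ))))

theorem t3kTw_apply (c : Qbˣ) (f : ↥(modularFunctionFieldBar (N * ℓ))) :
    t3kTw N ℓ h c f = tkrTw c ((t2w Qb N ℓ h f : ↥(modularFunctionFieldBar (N * ℓ))) :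
      LaurentSeries Qb) := rfl

theorem t3kInf_alpha (x : ↥(modularFunctionFieldBar N)) :
    t3kInf N ℓ (heckeAlphaBar Qb N ℓ x) = t3kBase N ℓ x := by
  rw [t3kInf_apply, coe_heckeAlphaBar, t3kBase_apply]

theorem t3kTw_alpha {c : Qbˣ} (hc : c ^ ℓ = 1) (x : ↥(modularFunctionFieldBar N)) :
    t3kTw N ℓ h c (heckeAlphaBar Qb N ℓ x) = t3kBase N ℓ x := by
  rw [t3kTw_apply, t2w_alpha, coe_heckeBetaBar, tkrTw_qExpand, hc, tkrTw_one_apply, t3kBase_apply]

theorem t3kInf_beta (x : ↥(modularFunctionFieldBar N)) :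
    t3kInf N ℓ (heckeBetaBar Qb N ℓ x) = qExpand Qb (ℓ * ℓ) (x : LaurentSeries Qb) := by
  rw [t3kInf_apply, coe_heckeBetaBar, qExpand_qExpand]

theorem t3kTw_beta (c : Qbˣ) (x : ↥(modularFunctionFieldBar N)) :
    t3kTw N ℓ h c (heckeBetaBar Qb N ℓ x) = tkrTw c (x : LaurentSeries Qb) := by
  rw [t3kTw_apply, t2w_beta, coe_heckeAlphaBar]

/-- the family of `ℓ + 1` embeddings -/
noncomputable def t3kFam (ζ : Qbˣ) :
    Option (Fin ℓ) → (↥(modularFunctionFieldBar (N * ℓ)) →+* LaurentSeries Qb)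
  | none => t3kInf N ℓ
  | some b => t3kTw N ℓ h (ζ ^ (b : ℕ))

theorem t3kFam_alpha {ζ : Qbˣ} (hζ : ζ ^ ℓ = 1) (i : Option (Fin ℓ))
    (x : ↥(modularFunctionFieldBar N)) :
    t3kFam N ℓ h ζ i (heckeAlphaBar Qb N ℓ x) = t3kBase N ℓ x := by
  cases i with
  | none => exact t3kInf_alpha N ℓ x
  | some b =>
    refine t3kTw_alpha N ℓ h ?_ x
    rw [← pow_mul, mul_comm, pow_mul, hζ, one_pow]

theorem t3k_coeff_jBar_neg_one :
    ((jBar N : ↥(modularFunctionFieldBar N)) : LaurentSeries Qb).coeff (-1) = 1 := by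
  have := Fermat.Agent.Igusa.coeff_jqModC_pow_self Qb 1
  rwa [pow_one] at this

theorem t3kFam_injective {ζ : Qbˣ} (hζ : IsPrimitiveRoot ζ ℓ) :
    Function.Injective (t3kFam N ℓ h ζ) := by
  have hℓ2 : 2 ≤ ℓ := hℓ.out.two_le
  -- the value at `Y = β j` separates the embeddings
  have hInf : (t3kInf N ℓ (heckeBetaBar Qb N ℓ (jBar N))).coeff (-1) = 0 := by
    rw [t3kInf_beta]
    refine qExpand_coeff_of_not_dvd (ℓ * ℓ) _ ?_
    intro hd
    have h1 : ((ℓ * ℓ : ℕ) : ℤ) ∣ 1 := (dvd_neg (a := ((ℓ * ℓ : ℕ) : ℤ)) (b := (1 : ℤ))).mp hd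
    have h2 : (ℓ * ℓ : ℕ) ∣ 1 := by exact_mod_cast h1
    have h3 := Nat.le_of_dvd one_pos h2
    nlinarith
  have hTw : ∀ c : Qbˣ, (t3kTw N ℓ h c (heckeBetaBar Qb N ℓ (jBar N))).coeff (-1)
      = ((c⁻¹ : Qbˣ) : Qb) := by
    intro c
    rw [t3kTw_beta, tkrTw_coeff, t3k_coeff_jBar_neg_one, mul_one, zpow_neg_one]
  intro i j hij
  have hval : (t3kFam N ℓ h ζ i (heckeBetaBar Qb N ℓ (jBar N))).coeff (-1)
      = (t3kFam N ℓ h ζ j (heckeBetaBar Qb N ℓ (jBar N))).coeff (-1) := by rw [hij]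
  cases i with
  | none =>
    cases j with
    | none => rfl
    | some b =>
      exfalso
      simp only [t3kFam] at hval
      rw [hInf, hTw] at hval
      exact (Units.ne_zero _) hval.symm
  | some a =>
    cases j with
    | none =>
      exfalso
      simp only [t3kFam] at hval
      rw [hInf, hTw] at hval
      exact (Units.ne_zero _) hval
    | some b =>
      simp only [t3kFam] at hval
      rw [hTw, hTw] at hval
      have h1 : (ζ ^ (a : ℕ))⁻¹ = (ζ ^ (b : ℕ))⁻¹ := Units.ext hval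
      have h2 : ζ ^ (a : ℕ) = ζ ^ (b : ℕ) := inv_injective h1
      have h3 : (a : ℕ) = (b : ℕ) := hζ.pow_inj a.2 b.2 h2
      exact congrArg some (Fin.ext h3)

end Emb

section Norm

variable (N ℓ : ℕ) [NeZero N] [hℓ : Fact ℓ.Prime] (h : ¬ ℓ ∣ N)

/-- **the norm `N_α` in terms of `q`-expansions**:
`(N_α f)(q^ℓ) = f(q^ℓ) · ∏_{b<ℓ} (w f)(ζ^b q)` for every `f ∈ F_{Nℓ}` -/
theorem t3k_norm_expand {ζ : Qbˣ} (hζ : IsPrimitiveRoot (ζ : Qb) ℓ)
    (f : ↥(modularFunctionFieldBar (N * ℓ))) :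
    t3kBase N ℓ (@Algebra.norm ↥(modularFunctionFieldBar N) ↥(modularFunctionFieldBar (N * ℓ)) _ _
        (algebraAlong (heckeAlphaBar Qb N ℓ)) f)
      = t3kInf N ℓ f * ∏ b : Fin ℓ, t3kTw N ℓ h (ζ ^ (b : ℕ)) f := by
  letI := algebraAlong (heckeAlphaBar Qb N ℓ)
  haveI : FiniteDimensional ↥(modularFunctionFieldBar N) ↥(modularFunctionFieldBar (N * ℓ)) :=
    t3h_alphaFinite N ℓ
  haveI : CharZero ↥(modularFunctionFieldBar N) :=
    charZero_of_injective_algebraMap (algebraMap Qb ↥(modularFunctionFieldBar N)).injective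
  have hζ' : IsPrimitiveRoot ζ ℓ := IsPrimitiveRoot.coe_units_iff.mp hζ
  have hcard : Fintype.card (Option (Fin ℓ))
      = Module.finrank ↥(modularFunctionFieldBar N) ↥(modularFunctionFieldBar (N * ℓ)) := by
    rw [Fintype.card_option, Fintype.card_fin]
    exact (t3k_finrank_alpha N ℓ h).symm
  have key := t3k_norm_eq_prod_of_embeddings (t3kBase N ℓ) (t3kFam N ℓ h ζ)
    (fun i x => t3kFam_alpha N ℓ h hζ'.pow_eq_one i x) (t3kFam_injective N ℓ h hζ') hcard f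
  rw [key, Fintype.prod_option]
  rfl

/-- `N_α x = N_β (w x)` -/
theorem t3k_norm_alpha_eq (x : ↥(modularFunctionFieldBar (N * ℓ))) :
    @Algebra.norm ↥(modularFunctionFieldBar N) ↥(modularFunctionFieldBar (N * ℓ)) _ _
        (algebraAlong (heckeAlphaBar Qb N ℓ)) x
      = @Algebra.norm ↥(modularFunctionFieldBar N) ↥(modularFunctionFieldBar (N * ℓ)) _ _
        (algebraAlong (heckeBetaBar Qb N ℓ)) (t2w Qb N ℓ h x) := by
  have := @Algebra.norm_eq_of_equiv_equiv ↥(modularFunctionFieldBar N)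
    ↥(modularFunctionFieldBar (N * ℓ)) ↥(modularFunctionFieldBar N)
    ↥(modularFunctionFieldBar (N * ℓ)) _ _ _ _ (algebraAlong (heckeAlphaBar Qb N ℓ))
    (algebraAlong (heckeBetaBar Qb N ℓ)) (RingEquiv.refl _) (t2w Qb N ℓ h).toRingEquiv
    (RingHom.ext (fun z => (t2w_alpha Qb N ℓ h z).symm)) x
  rw [this]
  rfl

/-- `N_β x = N_α (w x)` -/
theorem t3k_norm_beta_eq (x : ↥(modularFunctionFieldBar (N * ℓ))) :
    @Algebra.norm ↥(modularFunctionFieldBar N) ↥(modularFunctionFieldBar (N * ℓ)) _ _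
        (algebraAlong (heckeBetaBar Qb N ℓ)) x
      = @Algebra.norm ↥(modularFunctionFieldBar N) ↥(modularFunctionFieldBar (N * ℓ)) _ _
        (algebraAlong (heckeAlphaBar Qb N ℓ)) (t2w Qb N ℓ h x) := by
  rw [t3k_norm_alpha_eq N ℓ h, t2w_t2w]

include h in
/-- **(K1)** the functional Hecke operator of T1-K is `N_α ∘ β` -/
theorem t3k_norm_eq (y : ↥(modularFunctionFieldBar N)) :
    @Algebra.norm ↥(modularFunctionFieldBar N) ↥(modularFunctionFieldBar (N * ℓ)) _ _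
        (algebraAlong (heckeAlphaBar Qb N ℓ)) (heckeBetaBar Qb N ℓ y) = tkrHecke N ℓ y := by
  obtain ⟨ζ, hζ, -⟩ := tkr_exists_zeta ℓ
  apply t3kBase_injective N ℓ
  rw [t3k_norm_expand N ℓ h hζ, t3kInf_beta, t3kBase_apply, tkrHecke_spec hℓ.out h hζ y]
  congr 1
  exact Finset.prod_congr rfl (fun b _ => t3kTw_beta N ℓ h _ y)

include h in
/-- **(K3)** ... and also `N_β ∘ α` -/
theorem t3k_norm_beta_alpha (y : ↥(modularFunctionFieldBar N)) :
    @Algebra.norm ↥(modularFunctionFieldBar N) ↥(modularFunctionFieldBar (N * ℓ)) _ _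
        (algebraAlong (heckeBetaBar Qb N ℓ)) (heckeAlphaBar Qb N ℓ y) = tkrHecke N ℓ y := by
  rw [t3k_norm_beta_eq N ℓ h, t2w_alpha, t3k_norm_eq N ℓ h]

end Norm

end Fermat.Agent.T3
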