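/-
T3 (H4), abstract part (helper5): the residue of a norm over a discrete valuation ring.

`R` a DVR with uniformizer `t` and residue field `κ`, `S` a Dedekind domain, finite and torsion
free over `R`, with finitely many primes `Q`, all of residue degree one; `e Q` the ramification
index of `Q`.  If `x ∈ S` has the value `c Q ∈ R` at `Q` (`x - c Q ∈ Q`) for every `Q`, then
`N_{S/R} x ≡ ∏_Q (c Q) ^ (e Q)` modulo the maximal ideal.
-/
import Mathlib
import Fermat.Agent.Lib.T3.Hecke.NormVal

set_option autoImplicit false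
set_option linter.unusedSectionVars false
set_option linter.style.haveILetI false

namespace Fermat.Agent.T3

open IsDedekindDomain WithZero Polynomial

section

variable {R S : Type*} [CommRing R] [IsDomain R] [IsDiscreteValuationRing R]
  [CommRing S] [IsDedekindDomain S] [Algebra R S] [Module.Finite R S] [Module.IsTorsionFree R S]
  [Fintype (HeightOneSpectrum S)] [PerfectField (FractionRing R)]

theorem t3h_prod_exp {ι : Type*} (s : Finset ι) (a : ι → ℕ) :
    ∏ i ∈ s, (exp (-(a i : ℤ)) : ℤᵐ⁰) = exp (-((∑ i ∈ s, a i : ℕ) : ℤ)) := by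
  classical
  induction s using Finset.induction_on with
  | empty => simp
  | insert i s hi ih =>
    rw [Finset.prod_insert hi, Finset.sum_insert hi, ih, ← exp_add]
    congr 1
    push_cast
    ring

/-- there is a prime of `S` -/
theorem t3h_nonempty_heightOneSpectrum (R S : Type*) [CommRing R] [IsDomain R]
    [IsDiscreteValuationRing R] [CommRing S] [IsDedekindDomain S] [Algebra R S]
    [Module.Finite R S] [Module.IsTorsionFree R S] : Nonempty (HeightOneSpectrum S) := by
  haveI : Algebra.IsIntegral R S := Algebra.IsIntegral.of_finite R S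
  obtain ⟨Q, hQ, hlo⟩ :=
    Ideal.exists_maximal_ideal_liesOver_of_isIntegral (S := S) (IsLocalRing.maximalIdeal R)
  refine ⟨⟨Q, hQ.isPrime, ?_⟩⟩
  rintro rfl
  have h1 : (⊥ : Ideal S).under R = IsLocalRing.maximalIdeal R := (hlo.over).symm
  have h2 : (⊥ : Ideal S).under R = ⊥ := by
    rw [Ideal.under, Ideal.comap_bot_of_injective _ (FaithfulSMul.algebraMap_injective R S)]
  rw [h2] at h1
  exact (t3hMax R).ne_bot h1.symm

/-- the ord formula for the norm of the free `R`-algebra `S` -/
theorem t3h_intValuation_norm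
    (hdeg : ∀ Q : HeightOneSpectrum S, Q.asIdeal.inertiaDeg R = 1) (s : S) (hs : s ≠ 0) :
    (t3hMax R).intValuation (Algebra.norm R s) = ∏ Q : HeightOneSpectrum S, Q.intValuation s := by
  rw [← t3h_intValuation_intNorm hdeg s hs, Algebra.intNorm_eq_norm]

/-- lower bound for the order of a norm -/
theorem t3h_norm_mem_pow
    (hdeg : ∀ Q : HeightOneSpectrum S, Q.asIdeal.inertiaDeg R = 1) (s : S)
    (a : HeightOneSpectrum S → ℕ) (h : ∀ Q, s ∈ Q.asIdeal ^ a Q) :
    Algebra.norm R s ∈ IsLocalRing.maximalIdeal R ^ (∑ Q, a Q) := by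
  rcases eq_or_ne s 0 with rfl | hs
  · rw [Algebra.norm_zero]
    exact Ideal.zero_mem _
  rw [← t3hMax_asIdeal, ← HeightOneSpectrum.intValuation_le_pow_iff_mem,
    t3h_intValuation_norm hdeg s hs]
  calc ∏ Q : HeightOneSpectrum S, Q.intValuation s
      ≤ ∏ Q : HeightOneSpectrum S, exp (-(a Q : ℤ)) :=
        Finset.prod_le_prod' fun Q _ => (Q.intValuation_le_pow_iff_mem s (a Q)).mpr (h Q)
    _ = exp (-((∑ Q, a Q : ℕ) : ℤ)) := t3h_prod_exp _ _

/-- an element outside all primes has a unit norm -/
theorem t3h_norm_notMem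
    (hdeg : ∀ Q : HeightOneSpectrum S, Q.asIdeal.inertiaDeg R = 1) (s : S)
    (h : ∀ Q : HeightOneSpectrum S, s ∉ Q.asIdeal) :
    Algebra.norm R s ∉ IsLocalRing.maximalIdeal R := by
  have hs : s ≠ 0 := by
    rintro rfl
    haveI : Nonempty (HeightOneSpectrum S) := t3h_nonempty_heightOneSpectrum R S
    exact h (Classical.arbitrary _) (Ideal.zero_mem _)
  rw [← t3hMax_asIdeal, ← HeightOneSpectrum.intValuation_eq_one_iff,
    t3h_intValuation_norm hdeg s hs]
  exact Finset.prod_eq_one fun Q _ => HeightOneSpectrum.intValuation_eq_one_iff.mpr (h Q)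

/-- the characteristic polynomial of `x ∈ S` over `R` -/
noncomputable def t3hP (R : Type*) {S : Type*} [CommRing R] [CommRing S] [Algebra R S]
    [Module.Free R S] [Module.Finite R S] (x : S) : R[X] :=
  (Algebra.lmul R S x).charpoly

theorem t3hP_eval (x : S) (r : R) :
    (t3hP R x).eval r = Algebra.norm R (algebraMap R S r - x) := by
  rw [t3hP, LinearMap.eval_charpoly, Algebra.norm_apply]
  congr 1
  ext y
  simp [Algebra.smul_def]

theorem t3hP_monic (x : S) : (t3hP R x).Monic := LinearMap.charpoly_monic _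

theorem t3hP_natDegree (x : S) : (t3hP R x).natDegree = Module.finrank R S :=
  LinearMap.charpoly_natDegree _

/-- a polynomial over a DVR with infinite residue field all of whose values are divisible by
`t ^ E` has all its coefficients divisible by `t ^ E` -/
theorem t3h_coeff_dvd [Infinite (IsLocalRing.ResidueField R)] {t : R}
    (ht : IsLocalRing.maximalIdeal R = Ideal.span {t}) (E : ℕ) (H : R[X])
    (hH : ∀ r : R, t ^ E ∣ H.eval r) : ∀ k, t ^ E ∣ H.coeff k := by
  have ht0 : t ≠ 0 := by
    rintro rfl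
    rw [Ideal.span_singleton_eq_bot.mpr rfl] at ht
    exact (t3hMax R).ne_bot ht
  induction E generalizing H with
  | zero => intro k; simp
  | succ E ih =>
    -- the reduction of `H` vanishes identically
    have hred : H.map (IsLocalRing.residue R) = 0 := by
      apply Polynomial.funext
      intro z
      obtain ⟨r, rfl⟩ := IsLocalRing.residue_surjective z
      rw [Polynomial.eval_map, Polynomial.eval₂_at_apply, Polynomial.eval_zero,
        IsLocalRing.residue_eq_zero_iff, ht, Ideal.mem_span_singleton]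
      exact dvd_trans (dvd_pow_self t (Nat.succ_ne_zero E)) (hH r)
    have hC : C t ∣ H := by
      rw [Polynomial.C_dvd_iff_dvd_coeff]
      intro i
      have h1 : (H.map (IsLocalRing.residue R)).coeff i = 0 := by rw [hred]; simp
      rw [Polynomial.coeff_map, IsLocalRing.residue_eq_zero_iff, ht,
        Ideal.mem_span_singleton] at h1
      exact h1
    obtain ⟨H₁, rfl⟩ := hC
    intro k
    rw [Polynomial.coeff_C_mul, pow_succ']
    apply mul_dvd_mul_left
    apply ih H₁
    intro r
    have h2 := hH r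
    rw [Polynomial.eval_mul, Polynomial.eval_C, pow_succ'] at h2
    exact (mul_dvd_mul_iff_left ht0).mp h2

/-- if `X ^ E` divides `p (X + a)` then `(X - a) ^ E` divides `p` -/
theorem t3h_pow_dvd_of_comp {κ : Type*} [CommRing κ] (p : κ[X]) (a : κ) (E : ℕ)
    (h : X ^ E ∣ p.comp (X + C a)) : (X - C a) ^ E ∣ p := by
  obtain ⟨q, hq⟩ := h
  have h1 : p = (p.comp (X + C a)).comp (X - C a) := by
    rw [Polynomial.comp_assoc]
    simp
  rw [h1, hq]
  simp only [Polynomial.mul_comp, Polynomial.pow_comp, Polynomial.X_comp]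
  exact dvd_mul_right _ _

/-- **multiplicity of a root of the reduced characteristic polynomial** -/
theorem t3h_pow_dvd_map_charpoly [Infinite (IsLocalRing.ResidueField R)]
    (hdeg : ∀ Q : HeightOneSpectrum S, Q.asIdeal.inertiaDeg R = 1) {t : R}
    (ht : IsLocalRing.maximalIdeal R = Ideal.span {t}) (x : S) (g : R)
    (a : HeightOneSpectrum S → ℕ)
    (hx : ∀ Q : HeightOneSpectrum S, x - algebraMap R S g ∈ Q.asIdeal ^ a Q)
    (hta : ∀ Q : HeightOneSpectrum S, algebraMap R S t ∈ Q.asIdeal ^ a Q) :
    (X - C (IsLocalRing.residue R g)) ^ (∑ Q, a Q) ∣ (t3hP R x).map (IsLocalRing.residue R) := by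
  have ht0 : t ≠ 0 := by
    rintro rfl
    rw [Ideal.span_singleton_eq_bot.mpr rfl] at ht
    exact (t3hMax R).ne_bot ht
  set E := ∑ Q, a Q with hE
  set G := (t3hP R x).comp (X + C g) with hG
  set H := G.comp (C t * X) with hH
  have hval : ∀ r : R, t ^ E ∣ H.eval r := by
    intro r
    have h1 : H.eval r = Algebra.norm R (algebraMap R S (t * r + g) - x) := by
      rw [hH, hG, Polynomial.eval_comp, Polynomial.eval_comp, t3hP_eval]
      simp
    rw [h1, ← Ideal.mem_span_singleton, ← Ideal.span_singleton_pow, ← ht]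
    apply t3h_norm_mem_pow hdeg
    intro Q
    have h2 : algebraMap R S (t * r + g) - x
        = algebraMap R S t * algebraMap R S r - (x - algebraMap R S g) := by
      rw [map_add, map_mul]; ring
    rw [h2]
    exact Ideal.sub_mem _ (Ideal.mul_mem_right _ _ (hta Q)) (hx Q)
  have hcoeff := t3h_coeff_dvd ht E H hval
  apply t3h_pow_dvd_of_comp
  have hGmap : ((t3hP R x).map (IsLocalRing.residue R)).comp (X + C (IsLocalRing.residue R g))
      = G.map (IsLocalRing.residue R) := by
    rw [hG, Polynomial.map_comp]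
    simp
  rw [hGmap, Polynomial.X_pow_dvd_iff]
  intro k hk
  rw [Polynomial.coeff_map, IsLocalRing.residue_eq_zero_iff, ht, Ideal.mem_span_singleton]
  have h3 := hcoeff k
  rw [hH, Polynomial.comp_C_mul_X_coeff] at h3
  have h4 : t ^ E = t ^ (E - k) * t ^ k := by
    rw [← pow_add, Nat.sub_add_cancel hk.le]
  rw [h4] at h3
  have h5 : t ^ (E - k) ∣ G.coeff k := (mul_dvd_mul_iff_right (pow_ne_zero k ht0)).mp h3
  exact dvd_trans (dvd_pow_self t (by omega)) h5

/-- the sum of the ramification indices is the degree -/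
theorem t3h_sum_e_eq_finrank
    (hdeg : ∀ Q : HeightOneSpectrum S, Q.asIdeal.inertiaDeg R = 1) {t : R}
    (ht : IsLocalRing.maximalIdeal R = Ideal.span {t}) (e : HeightOneSpectrum S → ℕ)
    (hte : ∀ Q : HeightOneSpectrum S, Q.intValuation (algebraMap R S t) = exp (-(e Q : ℤ))) :
    ∑ Q, e Q = Module.finrank R S := by
  have ht0 : t ≠ 0 := by
    rintro rfl
    rw [Ideal.span_singleton_eq_bot.mpr rfl] at ht
    exact (t3hMax R).ne_bot ht
  have htS : algebraMap R S t ≠ 0 := by
    rwa [ne_eq, FaithfulSMul.algebraMap_eq_zero_iff]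
  have h := t3h_intValuation_norm hdeg (algebraMap R S t) htS
  rw [Algebra.norm_algebraMap, map_pow,
    HeightOneSpectrum.intValuation_singleton _ ht0 (by rw [t3hMax_asIdeal, ht]), ← exp_nsmul] at h
  simp_rw [hte] at h
  rw [t3h_prod_exp] at h
  have h2 := exp_injective h
  simp only [nsmul_eq_mul, mul_neg, mul_one, neg_inj] at h2
  exact_mod_cast h2.symm

/-- **the reduced characteristic polynomial** of an element with prescribed values to the full
ramification order -/
theorem t3h_map_charpoly_eq_prod [Infinite (IsLocalRing.ResidueField R)]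
    (hdeg : ∀ Q : HeightOneSpectrum S, Q.asIdeal.inertiaDeg R = 1) {t : R}
    (ht : IsLocalRing.maximalIdeal R = Ideal.span {t}) (e : HeightOneSpectrum S → ℕ)
    (hte : ∀ Q : HeightOneSpectrum S, Q.intValuation (algebraMap R S t) = exp (-(e Q : ℤ)))
    (x : S) (c : HeightOneSpectrum S → R)
    (hx : ∀ Q : HeightOneSpectrum S, x - algebraMap R S (c Q) ∈ Q.asIdeal ^ e Q) :
    (t3hP R x).map (IsLocalRing.residue R)
      = ∏ Q, (X - C (IsLocalRing.residue R (c Q))) ^ e Q := by
  classical
  set p := (t3hP R x).map (IsLocalRing.residue R) with hp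
  have hmonic : p.Monic := (t3hP_monic x).map _
  have hdegp : p.natDegree = Module.finrank R S := by
    rw [hp, (t3hP_monic x).natDegree_map, t3hP_natDegree]
  have hp0 : p ≠ 0 := hmonic.ne_zero
  have hsum := t3h_sum_e_eq_finrank hdeg ht e hte
  have hmemt : ∀ Q : HeightOneSpectrum S, algebraMap R S t ∈ Q.asIdeal ^ e Q := fun Q => by
    rw [← HeightOneSpectrum.intValuation_le_pow_iff_mem, hte]
  set M : Multiset (IsLocalRing.ResidueField R) :=
    ∑ Q : HeightOneSpectrum S, Multiset.replicate (e Q) (IsLocalRing.residue R (c Q)) with hM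
  have hle : M ≤ p.roots := by
    rw [Multiset.le_iff_count]
    intro γ
    rw [Polynomial.count_roots, hM, Multiset.count_sum']
    simp_rw [Multiset.count_replicate]
    obtain ⟨g, rfl⟩ := IsLocalRing.residue_surjective γ
    rw [Polynomial.le_rootMultiplicity_iff hp0]
    apply t3h_pow_dvd_map_charpoly hdeg ht x g
    · intro Q
      split_ifs with hQ
      · have h1 : c Q - g ∈ IsLocalRing.maximalIdeal R := by
          rw [← IsLocalRing.residue_eq_zero_iff, map_sub, hQ, sub_self]
        rw [ht, Ideal.mem_span_singleton] at h1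
        obtain ⟨r, hr⟩ := h1
        have h2 : x - algebraMap R S g
            = (x - algebraMap R S (c Q)) + algebraMap R S t * algebraMap R S r := by
          rw [← map_mul, ← hr, map_sub]; ring
        rw [h2]
        exact Ideal.add_mem _ (hx Q) (Ideal.mul_mem_right _ _ (hmemt Q))
      · rw [pow_zero, Ideal.one_eq_top]; trivial
    · intro Q
      split_ifs with hQ
      · exact hmemt Q
      · rw [pow_zero, Ideal.one_eq_top]; trivial
  have hcardM : M.card = Module.finrank R S := by
    rw [hM, Multiset.card_sum]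
    simp_rw [Multiset.card_replicate]
    exact hsum
  have hroots : M = p.roots := by
    apply Multiset.eq_of_le_of_card_le hle
    rw [hcardM, ← hdegp]
    exact Polynomial.card_roots' p
  have hcard : p.roots.card = p.natDegree := by rw [← hroots, hcardM, hdegp]
  rw [← Polynomial.prod_multiset_X_sub_C_of_monic_of_roots_card_eq hmonic hcard, ← hroots, hM]
  rw [← Multiset.mapAddMonoidHom_apply, map_sum, Multiset.prod_sum]
  refine Finset.prod_congr rfl fun Q _ => ?_
  rw [Multiset.mapAddMonoidHom_apply, Multiset.map_replicate, Multiset.prod_replicate]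

/-- the residue of the norm of an element with prescribed values to the full ramification
order -/
theorem t3h_residue_norm_strong [Infinite (IsLocalRing.ResidueField R)]
    (hdeg : ∀ Q : HeightOneSpectrum S, Q.asIdeal.inertiaDeg R = 1) {t : R}
    (ht : IsLocalRing.maximalIdeal R = Ideal.span {t}) (e : HeightOneSpectrum S → ℕ)
    (hte : ∀ Q : HeightOneSpectrum S, Q.intValuation (algebraMap R S t) = exp (-(e Q : ℤ)))
    (x : S) (c : HeightOneSpectrum S → R)
    (hx : ∀ Q : HeightOneSpectrum S, x - algebraMap R S (c Q) ∈ Q.asIdeal ^ e Q) :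
    IsLocalRing.residue R (Algebra.norm R x) = ∏ Q, IsLocalRing.residue R (c Q) ^ e Q := by
  have h1 := t3hP_eval (R := R) x 0
  have h2 : algebraMap R S 0 - x = algebraMap R S (-1) * x := by
    rw [map_zero, map_neg, map_one]; ring
  rw [h2, map_mul, Algebra.norm_algebraMap] at h1
  have h3 := congrArg (IsLocalRing.residue R) h1
  rw [← Polynomial.eval₂_at_apply, ← Polynomial.eval_map,
    t3h_map_charpoly_eq_prod hdeg ht e hte x c hx, map_zero, Polynomial.eval_prod] at h3
  simp only [Polynomial.eval_pow, Polynomial.eval_sub, Polynomial.eval_X, Polynomial.eval_C,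
    zero_sub] at h3
  have h4 : ∏ Q : HeightOneSpectrum S, (-IsLocalRing.residue R (c Q)) ^ e Q
      = (-1) ^ Module.finrank R S * ∏ Q, IsLocalRing.residue R (c Q) ^ e Q := by
    rw [← t3h_sum_e_eq_finrank hdeg ht e hte, ← Finset.prod_pow_eq_pow_sum,
      ← Finset.prod_mul_distrib]
    refine Finset.prod_congr rfl fun Q _ => ?_
    rw [← mul_pow, neg_one_mul]
  rw [h4, map_mul, map_pow, map_neg, map_one] at h3
  have h5 : ((-1 : IsLocalRing.ResidueField R) ^ Module.finrank R S) ≠ 0 :=
    pow_ne_zero _ (neg_ne_zero.mpr one_ne_zero)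
  exact (mul_left_cancel₀ h5 h3).symm

/-- a prime of `S` contains the image of the maximal ideal of `R` -/
theorem t3h_algebraMap_mem (Q : HeightOneSpectrum S) {r : R}
    (hr : r ∈ IsLocalRing.maximalIdeal R) : algebraMap R S r ∈ Q.asIdeal := by
  haveI := t3h_liesOver_maximalIdeal (R := R) Q
  rw [Ideal.over_def Q.asIdeal (IsLocalRing.maximalIdeal R)] at hr
  exact hr

theorem t3h_algebraMap_notMem (Q : HeightOneSpectrum S) {r : R}
    (hr : r ∉ IsLocalRing.maximalIdeal R) : algebraMap R S r ∉ Q.asIdeal := by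
  haveI := t3h_liesOver_maximalIdeal (R := R) Q
  intro h
  apply hr
  rw [Ideal.over_def Q.asIdeal (IsLocalRing.maximalIdeal R)]
  exact h

/-- the norm of `1 + y`, `y` in the radical, is `≡ 1` -/
theorem t3h_residue_norm_one_add [IsAlgClosed (IsLocalRing.ResidueField R)]
    (hdeg : ∀ Q : HeightOneSpectrum S, Q.asIdeal.inertiaDeg R = 1) (y : S)
    (hy : ∀ Q : HeightOneSpectrum S, y ∈ Q.asIdeal) :
    IsLocalRing.residue R (Algebra.norm R (1 + y)) = 1 := by
  set p := (t3hP R (-y)).map (IsLocalRing.residue R) with hp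
  have hmonic : p.Monic := (t3hP_monic (-y)).map _
  have hroots : ∀ γ ∈ p.roots, γ = 0 := by
    intro γ hγ
    by_contra hne
    rw [Polynomial.mem_roots hmonic.ne_zero, Polynomial.IsRoot.def] at hγ
    obtain ⟨r, rfl⟩ := IsLocalRing.residue_surjective γ
    rw [hp, Polynomial.eval_map, Polynomial.eval₂_at_apply, t3hP_eval,
      IsLocalRing.residue_eq_zero_iff] at hγ
    have hr : r ∉ IsLocalRing.maximalIdeal R := by
      rwa [IsLocalRing.residue_eq_zero_iff] at hne
    refine t3h_norm_notMem hdeg _ (fun Q hmem => ?_) hγ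
    apply t3h_algebraMap_notMem Q hr
    have := Ideal.sub_mem _ hmem (hy Q)
    rwa [sub_neg_eq_add, add_sub_cancel_right] at this
  have hsplit := (IsAlgClosed.splits p).eq_prod_roots
  rw [hmonic.leadingCoeff, map_one, one_mul, Multiset.eq_replicate_of_mem hroots,
    Multiset.map_replicate, Multiset.prod_replicate, map_zero, sub_zero] at hsplit
  have h1 := t3hP_eval (R := R) (-y) 1
  rw [map_one, sub_neg_eq_add] at h1
  rw [← h1, ← Polynomial.eval₂_at_apply, ← Polynomial.eval_map, ← hp, hsplit, map_one,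
    Polynomial.eval_pow, Polynomial.eval_X, one_pow]

/-- ramification indices are positive -/
theorem t3h_e_pos {t : R} (ht : IsLocalRing.maximalIdeal R = Ideal.span {t})
    (e : HeightOneSpectrum S → ℕ)
    (hte : ∀ Q : HeightOneSpectrum S, Q.intValuation (algebraMap R S t) = exp (-(e Q : ℤ)))
    (Q : HeightOneSpectrum S) : 0 < e Q := by
  have htm : t ∈ IsLocalRing.maximalIdeal R := by
    rw [ht]; exact Ideal.mem_span_singleton_self t
  have h1 := (Q.intValuation_lt_one_iff_mem _).mpr (t3h_algebraMap_mem Q htm)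
  rw [hte, ← exp_zero, exp_lt_exp] at h1
  omega

/-- **the residue of a norm**: if `x` has the value `c Q` at every prime `Q` of `S`, then
`N x ≡ ∏_Q (c Q) ^ (e Q)` -/
theorem t3h_residue_norm [IsAlgClosed (IsLocalRing.ResidueField R)]
    (hdeg : ∀ Q : HeightOneSpectrum S, Q.asIdeal.inertiaDeg R = 1) {t : R}
    (ht : IsLocalRing.maximalIdeal R = Ideal.span {t}) (e : HeightOneSpectrum S → ℕ)
    (hte : ∀ Q : HeightOneSpectrum S, Q.intValuation (algebraMap R S t) = exp (-(e Q : ℤ)))
    (x : S) (c : HeightOneSpectrum S → R)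
    (hx : ∀ Q : HeightOneSpectrum S, x - algebraMap R S (c Q) ∈ Q.asIdeal) :
    IsLocalRing.residue R (Algebra.norm R x) = ∏ Q, IsLocalRing.residue R (c Q) ^ e Q := by
  classical
  haveI : Infinite (IsLocalRing.ResidueField R) := IsAlgClosed.instInfinite
  have hepos := t3h_e_pos ht e hte
  by_cases hcase : ∃ Q₀ : HeightOneSpectrum S, c Q₀ ∈ IsLocalRing.maximalIdeal R
  · obtain ⟨Q₀, hQ₀⟩ := hcase
    have hxQ : x ∈ Q₀.asIdeal := by
      have := Ideal.add_mem _ (hx Q₀) (t3h_algebraMap_mem Q₀ hQ₀)
      rwa [sub_add_cancel] at this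
    have h1 := t3h_norm_mem_pow hdeg x (fun Q => if Q = Q₀ then 1 else 0) (fun Q => by
      split_ifs with h
      · rw [h, pow_one]; exact hxQ
      · rw [pow_zero, Ideal.one_eq_top]; trivial)
    rw [Finset.sum_ite_eq' Finset.univ Q₀, if_pos (Finset.mem_univ _), pow_one,
      ← IsLocalRing.residue_eq_zero_iff] at h1
    rw [h1]
    symm
    apply Finset.prod_eq_zero (Finset.mem_univ Q₀)
    rw [(IsLocalRing.residue_eq_zero_iff _).mpr hQ₀, zero_pow (hepos Q₀).ne']
  · push Not at hcase
    -- strong approximation of the values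
    obtain ⟨xs, hxs⟩ := IsDedekindDomain.exists_forall_sub_mem_ideal
      (s := (Finset.univ : Finset (HeightOneSpectrum S))) (fun Q => Q.asIdeal) e
      (fun Q _ => Ideal.prime_of_isPrime Q.ne_bot Q.isPrime)
      (fun Q _ Q' _ h h' => h (HeightOneSpectrum.ext h'))
      (fun Q => algebraMap R S (c Q))
    have hxs' : ∀ Q : HeightOneSpectrum S, xs - algebraMap R S (c Q) ∈ Q.asIdeal ^ e Q :=
      fun Q => hxs Q (Finset.mem_univ Q)
    have hxsQ : ∀ Q : HeightOneSpectrum S, xs - algebraMap R S (c Q) ∈ Q.asIdeal :=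
      fun Q => Ideal.pow_le_self (hepos Q).ne' (hxs' Q)
    have hnot : ∀ Q : HeightOneSpectrum S, xs ∉ Q.asIdeal := by
      intro Q hmem
      apply t3h_algebraMap_notMem Q (hcase Q)
      have := Ideal.sub_mem _ hmem (hxsQ Q)
      rwa [sub_sub_cancel] at this
    have hNunit : IsUnit (Algebra.norm R xs) := by
      have := t3h_norm_notMem hdeg xs hnot
      rwa [IsLocalRing.mem_maximalIdeal, mem_nonunits_iff, not_not] at this
    rw [Algebra.norm_apply, ← LinearMap.isUnit_iff_isUnit_det] at hNunit
    obtain ⟨φ, hφ⟩ := hNunit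
    set u : S := (φ⁻¹ : (S →ₗ[R] S)ˣ).val 1 with hu
    have hxu : xs * u = 1 := by
      have h1 : (φ.val * (φ⁻¹ : (S →ₗ[R] S)ˣ).val) 1 = 1 := by
        rw [Units.mul_inv]; rfl
      rw [Module.End.mul_apply, hφ] at h1
      exact h1
    set y : S := u * (x - xs) with hy
    have hyQ : ∀ Q : HeightOneSpectrum S, y ∈ Q.asIdeal := by
      intro Q
      apply Ideal.mul_mem_left
      have := Ideal.sub_mem _ (hx Q) (hxsQ Q)
      rwa [sub_sub_sub_cancel_right] at this
    have hfac : x = xs * (1 + y) := by
      rw [hy, mul_add, mul_one, ← mul_assoc, hxu, one_mul]; ring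
    rw [hfac, map_mul, map_mul, t3h_residue_norm_one_add hdeg y hyQ, mul_one,
      t3h_residue_norm_strong hdeg ht e hte xs c hxs']

/-- **the reduced characteristic polynomial** of an element with prescribed values -/
theorem t3h_map_charpoly_eq_prod' [IsAlgClosed (IsLocalRing.ResidueField R)]
    (hdeg : ∀ Q : HeightOneSpectrum S, Q.asIdeal.inertiaDeg R = 1) {t : R}
    (ht : IsLocalRing.maximalIdeal R = Ideal.span {t}) (e : HeightOneSpectrum S → ℕ)
    (hte : ∀ Q : HeightOneSpectrum S, Q.intValuation (algebraMap R S t) = exp (-(e Q : ℤ)))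
    (x : S) (c : HeightOneSpectrum S → R)
    (hx : ∀ Q : HeightOneSpectrum S, x - algebraMap R S (c Q) ∈ Q.asIdeal) :
    (t3hP R x).map (IsLocalRing.residue R)
      = ∏ Q, (X - C (IsLocalRing.residue R (c Q))) ^ e Q := by
  haveI : Infinite (IsLocalRing.ResidueField R) := IsAlgClosed.instInfinite
  apply Polynomial.funext
  intro z
  obtain ⟨r, rfl⟩ := IsLocalRing.residue_surjective z
  rw [Polynomial.eval_map, Polynomial.eval₂_at_apply, t3hP_eval,
    t3h_residue_norm hdeg ht e hte (algebraMap R S r - x) (fun Q => r - c Q) (fun Q => by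
      have h1 : algebraMap R S r - x - algebraMap R S (r - c Q)
          = -(x - algebraMap R S (c Q)) := by
        rw [map_sub]; ring
      rw [h1]
      exact Ideal.neg_mem_iff _ |>.mpr (hx Q)),
    Polynomial.eval_prod]
  refine Finset.prod_congr rfl fun Q _ => ?_
  simp

end

end Fermat.Agent.T3
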