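/-
T3 (H4), concrete part (helper5): the value of a norm at a place.

`K` algebraically closed of characteristic zero, `F'/F` a finite extension of function fields over
`K`, `v` a place of `F`.  If `h : F'` has the value `c w ∈ K` at every place `w` of `F'` over `v`,
then `N_{F'/F} h` has the value `∏_w (c w) ^ e(w)` at `v`.
-/
import Mathlib
import Fermat.Prelude.Def_AlgebraicCurve_Correspondence
import Fermat.Agent.Lib.Curve.Global
import Fermat.Agent.Lib.T3.Hecke.Local
import Fermat.Agent.Lib.T3.Hecke.NormValue

set_option autoImplicit false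
set_option linter.unusedSectionVars false
set_option linter.style.haveILetI false

namespace Fermat.Agent.T3

open AlgebraicCurve IsDedekindDomain WithZero Fermat.Agent.Curve Fermat.Agent.Curve.PlaceAux

/-- a surjective image of an algebraically closed field is algebraically closed -/
theorem t3h_isAlgClosed_of_surjective {k k' : Type*} [Field k] [Field k'] [IsAlgClosed k]
    (f : k →+* k') (hf : Function.Surjective f) : IsAlgClosed k' := by
  let e : k ≃+* k' := RingEquiv.ofBijective f ⟨f.injective, hf⟩
  apply IsAlgClosed.of_exists_root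
  intro p hmp hp
  have hpe : Polynomial.degree (p.map e.symm.toRingHom) ≠ 0 := by
    rw [Polynomial.degree_map]
    exact ne_of_gt (Polynomial.degree_pos_of_irreducible hp)
  rcases IsAlgClosed.exists_root (k := k) (p.map e.symm.toRingHom) hpe with ⟨x, hx⟩
  use e x
  rw [Polynomial.IsRoot] at hx
  apply e.symm.injective
  rw [map_zero, ← hx]
  clear hx hpe hp hmp
  induction p using Polynomial.induction_on <;> simp_all

variable {K F F' : Type*} [Field K] [Field F] [Field F'] [Algebra K F] [Algebra K F']
  [Algebra F F'] [IsScalarTower K F F'] [FiniteDimensional F F'] [Algebra.IsSeparable F F']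
  (v : Place K F)

attribute [local instance] t3hS_isDedekindDomain t3hS_isFractionRing t3hS_moduleFinite
  t3hS_algebra t3hS_isScalarTower t3hS_fintype

/-- the residue field of a place of a function field over an algebraically closed field is
algebraically closed -/
theorem t3h_isAlgClosed_residueField [IsAlgClosed K] {x : F} (hx : IsFunctionFieldGen K F x) :
    IsAlgClosed (IsLocalRing.ResidueField v.toValuationSubring) :=
  t3h_isAlgClosed_of_surjective (algebraMap K v.ResidueField)
    (algebraMap_residueField_surjective hx v)

/-- `OrdGE v · 1` in terms of the maximal ideal -/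
theorem t3h_ordGE_one_iff (r : v.toValuationSubring) :
    OrdGE v (r : F) 1 ↔ r ∈ IsLocalRing.maximalIdeal v.toValuationSubring := by
  rw [OrdGE, v.adicValuation_coe, ← v.heightOneSpectrum_asIdeal]
  have h := v.heightOneSpectrum.intValuation_le_pow_iff_mem r 1
  rw [pow_one] at h
  exact h

/-- the valuation at `Q` of a uniformizer of `v` -/
theorem t3h_intValuation_uniformizer (t : v.toValuationSubring) (ht : Irreducible t)
    (Q : HeightOneSpectrum (t3hS F' v)) :
    Q.intValuation (algebraMap v.toValuationSubring (t3hS F' v) t)
      = exp (-(((t3hPlace v Q).ramificationIndex F : ℕ) : ℤ)) := by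
  have ht0 : (t : F) ≠ 0 := by
    simpa [ne_eq, ZeroMemClass.coe_eq_zero] using ht.ne_zero
  have htF' : algebraMap F F' (t : F) ≠ 0 := by simpa using ht0
  rw [← HeightOneSpectrum.valuation_of_algebraMap (K := F'), ← t3hPlace_adicValuation]
  show (t3hPlace v Q).adicValuation (algebraMap F F' (t : F)) = _
  rw [(t3hPlace v Q).adicValuation_eq_exp_neg_ord htF', (t3hPlace v Q).ord_restrict,
    t3hPlace_restrict, v.ord_coe_irreducible ht, mul_one]

variable [IsAlgClosed K] [CharZero K]

/-- **value of a norm at a place**, indexed by the primes of the integral closure of `O_v` -/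
theorem t3h_norm_value_aux {x : F} (hx : IsFunctionFieldGen K F x) {x' : F'}
    (hx' : IsFunctionFieldGen K F' x') (h : F')
    (c : HeightOneSpectrum (t3hS F' v) → K)
    (hc : ∀ Q, OrdGE (t3hPlace v Q) (h - algebraMap K F' (c Q)) 1) :
    OrdGE v (Algebra.norm F h
      - algebraMap K F (∏ Q, c Q ^ (t3hPlace v Q).ramificationIndex F)) 1 := by
  haveI : CharZero F := charZero_of_injective_algebraMap (algebraMap K F).injective
  haveI : CharZero v.toValuationSubring :=
    charZero_of_injective_algebraMap (algebraMap K v.toValuationSubring).injective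
  haveI : CharZero (FractionRing v.toValuationSubring) :=
    charZero_of_injective_algebraMap (IsFractionRing.injective v.toValuationSubring _)
  haveI : IsAlgClosed (IsLocalRing.ResidueField v.toValuationSubring) :=
    t3h_isAlgClosed_residueField v hx
  haveI : Module.Free v.toValuationSubring (t3hS F' v) :=
    Module.free_of_finite_type_torsion_free'
  -- `h` is integral over `O_v`
  have hint : h ∈ (algebraMap (t3hS F' v) F').range := by
    apply HeightOneSpectrum.mem_integers_of_valuation_le_one
    intro Q
    rw [← t3hPlace_adicValuation, ← mem_iff_adicValuation_le_one]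
    have h1 : h - algebraMap K F' (c Q) ∈ (t3hPlace v Q).toValuationSubring :=
      (ordGE_zero_iff_mem _).mp ((hc Q).mono _ (by norm_num))
    have h2 := (t3hPlace v Q).toValuationSubring.add_mem _ _ h1 (algebraMap_mem _ (c Q))
    rwa [sub_add_cancel] at h2
  obtain ⟨xS, rfl⟩ := hint
  obtain ⟨t, ht⟩ := IsDiscreteValuationRing.exists_irreducible v.toValuationSubring
  have hres := t3h_residue_norm (R := v.toValuationSubring) (S := t3hS F' v)
    (t3h_inertiaDeg_eq_one v hx') ht.maximalIdeal_eq
    (fun Q => (t3hPlace v Q).ramificationIndex F) (t3h_intValuation_uniformizer v t ht) xS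
    (fun Q => algebraMap K v.toValuationSubring (c Q)) (fun Q => by
      rw [t3h_mem_iff_ordGE]
      have heq : algebraMap (t3hS F' v) F'
          (xS - algebraMap v.toValuationSubring (t3hS F' v)
            (algebraMap K v.toValuationSubring (c Q)))
          = algebraMap (t3hS F' v) F' xS - algebraMap K F' (c Q) := by
        rw [map_sub]
        congr 1
        show algebraMap F F' (algebraMap K F (c Q)) = algebraMap K F' (c Q)
        rw [← IsScalarTower.algebraMap_apply]
      rw [heq]
      exact hc Q)
  -- translate back
  have hN : algebraMap v.toValuationSubring F (Algebra.norm v.toValuationSubring xS)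
      = Algebra.norm F (algebraMap (t3hS F' v) F' xS) := by
    rw [← Algebra.intNorm_eq_norm, Algebra.algebraMap_intNorm (A := v.toValuationSubring)
      (K := F) (L := F') (B := t3hS F' v)]
  rw [← hN]
  have hmem : Algebra.norm v.toValuationSubring xS
      - algebraMap K v.toValuationSubring (∏ Q, c Q ^ (t3hPlace v Q).ramificationIndex F)
      ∈ IsLocalRing.maximalIdeal v.toValuationSubring := by
    rw [← IsLocalRing.residue_eq_zero_iff, map_sub, hres, sub_eq_zero, map_prod, map_prod]
    refine Finset.prod_congr rfl fun Q _ => ?_
    rw [map_pow, map_pow]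
  exact (t3h_ordGE_one_iff v _).mpr hmem

omit [CharZero K] [IsAlgClosed K] in
/-- the places over `v` as the image of `t3hPlace` -/
theorem t3h_image_eq_fiber [HasPrincipalDivisors K F'] [DecidableEq (Place K F')] :
    Finset.univ.image (t3hPlace (F' := F') v) = v.fiber F' := by
  ext w
  rw [Finset.mem_image, Place.mem_fiber]
  constructor
  · rintro ⟨Q, -, rfl⟩
    exact t3hPlace_restrict v Q
  · intro hw
    obtain ⟨Q, hQ⟩ := t3hPlace_surjective v w hw
    exact ⟨Q, Finset.mem_univ _, hQ⟩

/-- **norm formula at a place**, fibre form: `ord_v (N f) = ∑_{w ∣ v} ord_w f` -/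
theorem t3h_ord_norm_fiber [HasPrincipalDivisors K F'] {x' : F'}
    (hx' : IsFunctionFieldGen K F' x') (f : F') (hf : f ≠ 0) :
    v.ord (Algebra.norm F f) = ∑ w ∈ v.fiber F', w.ord f := by
  classical
  rw [t3h_ord_norm v hx' f hf, ← t3h_image_eq_fiber v,
    Finset.sum_image fun Q _ Q' _ h => t3hPlace_injective v h]

/-- **value of a norm at a place**: if `h` has the value `c w` at every `w ∣ v`, then `N h` has
the value `∏_{w ∣ v} (c w) ^ e(w)` at `v` -/
theorem t3h_norm_value [HasPrincipalDivisors K F'] {x : F} (hx : IsFunctionFieldGen K F x)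
    {x' : F'} (hx' : IsFunctionFieldGen K F' x') (h : F') (c : Place K F' → K)
    (hc : ∀ w ∈ v.fiber F', OrdGE w (h - algebraMap K F' (c w)) 1) :
    OrdGE v (Algebra.norm F h
      - algebraMap K F (∏ w ∈ v.fiber F', c w ^ w.ramificationIndex F)) 1 := by
  classical
  have h1 := t3h_norm_value_aux v hx hx' h (fun Q => c (t3hPlace v Q)) (fun Q =>
    hc _ (Place.mem_fiber.mpr (t3hPlace_restrict v Q)))
  rw [← t3h_image_eq_fiber v, Finset.prod_image fun Q _ Q' _ h => t3hPlace_injective v h]
  exact h1

end Fermat.Agent.T3
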