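/-
T3 (H4), `Along` form (helper5): order and value of a norm along a `K`-algebra homomorphism
`φ : F → F'` of function fields over an algebraically closed field of characteristic zero.
-/
import Mathlib
import Fermat.Prelude.Def_AlgebraicCurve_Correspondence
import Fermat.Agent.Lib.T3.Hecke.Along
import Fermat.Agent.Lib.T3.Hecke.NormValuePlace

set_option autoImplicit false
set_option linter.unusedSectionVars false
set_option linter.style.haveILetI false

namespace Fermat.Agent.T3

open AlgebraicCurve IsDedekindDomain WithZero Fermat.Agent.Curve Fermat.Agent.Curve.PlaceAux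

variable {K F F' : Type*} [Field K] [Field F] [Field F'] [Algebra K F] [Algebra K F']

/-- the norm along `φ : F → F'` -/
noncomputable def t3hNormAlong (φ : F →ₐ[K] F') : F' →* F :=
  letI := algebraAlong φ
  Algebra.norm F

theorem t3hNormAlong_apply (φ : F →ₐ[K] F') (f : F') :
    t3hNormAlong φ f = (letI := algebraAlong φ; Algebra.norm F f) := rfl

/-- `N (φ g) = g ^ [F' : φ F]` -/
theorem t3hNormAlong_map (φ : F →ₐ[K] F') (g : F) :
    t3hNormAlong φ (φ g) = g ^ finrankAlong K φ := by
  letI := algebraAlong φ
  exact Algebra.norm_algebraMap (S := F') g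

variable [IsAlgClosed K] [CharZero K]

/-- **norm formula along `φ`**: `ord_v (N f) = ∑_{w ∘ φ = v} ord_w f` -/
theorem t3h_ord_norm_along [HasPrincipalDivisors K F'] {x : F} (hx : IsFunctionFieldGen K F x)
    {x' : F'} (hx' : IsFunctionFieldGen K F' x') (φ : F →ₐ[K] F')
    (hφ : φ.toRingHom.IsIntegral) (v : Place K F) (f : F') (hf : f ≠ 0) :
    v.ord (t3hNormAlong φ f) = ∑ w ∈ Place.fiberAlong φ hφ v, w.ord f := by
  letI := algebraAlong φ
  haveI := isScalarTower_along φ
  haveI := isIntegral_along φ hφ
  haveI : Module.Finite F F' := t3h_finiteAlong hx hx' φ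
  haveI : CharZero F := charZero_of_injective_algebraMap (algebraMap K F).injective
  exact t3h_ord_norm_fiber v hx' f hf

/-- **value of a norm along `φ`**: if `h` has the value `c w` at every place `w` of `F'` over `v`,
then `N h` has the value `∏_w (c w) ^ e(w)` at `v` -/
theorem t3h_norm_value_along [HasPrincipalDivisors K F'] {x : F} (hx : IsFunctionFieldGen K F x)
    {x' : F'} (hx' : IsFunctionFieldGen K F' x') (φ : F →ₐ[K] F')
    (hφ : φ.toRingHom.IsIntegral) (v : Place K F) (h : F') (c : Place K F' → K)
    (hc : ∀ w ∈ Place.fiberAlong φ hφ v, OrdGE w (h - algebraMap K F' (c w)) 1) :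
    OrdGE v (t3hNormAlong φ h
      - algebraMap K F (∏ w ∈ Place.fiberAlong φ hφ v, c w ^ w.ramificationIndexAlong φ)) 1 := by
  letI := algebraAlong φ
  haveI := isScalarTower_along φ
  haveI := isIntegral_along φ hφ
  haveI : Module.Finite F F' := t3h_finiteAlong hx hx' φ
  haveI : CharZero F := charZero_of_injective_algebraMap (algebraMap K F).injective
  exact t3h_norm_value v hx hx' h c hc

end Fermat.Agent.T3
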