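/-
T3 (H4), modular instance (helper5): order and value of norms along the degeneracy maps
`α, β : F_N → F_{N ℓ}` over `ℚ̄`.
-/
import Mathlib
import Fermat.Agent.Lib.T3.Hecke.Modular
import Fermat.Agent.Lib.T3.Hecke.AlongValue

set_option autoImplicit false
set_option linter.unusedSectionVars false
set_option linter.style.haveILetI false

namespace Fermat.Agent.T3

open AlgebraicCurve ModularCurve Fermat.Agent.Curve Fermat.Agent.Curve.PlaceAux

local notation "Qb" => AlgebraicClosure ℚ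

variable (N ℓ : ℕ) [NeZero N] [NeZero ℓ]

/-- `ord_P (N_α f) = ∑_{W ∘ α = P} ord_W f` -/
theorem t3h_ord_norm_alpha
    (P : Place Qb ↥(laurentBaseChange Qb (modularFunctionFieldFull N)))
    (f : ↥(laurentBaseChange Qb (modularFunctionFieldFull (N * ℓ)))) (hf : f ≠ 0) :
    P.ord (t3hNormAlong (heckeAlphaBar Qb N ℓ) f)
      = ∑ W ∈ Place.fiberAlong (heckeAlphaBar Qb N ℓ) (t3h_alphaIntegral N ℓ) P, W.ord f :=
  t3h_ord_norm_along (t3h_gen N) (t3h_gen (N * ℓ)) _ _ P f hf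

/-- `ord_P (N_β f) = ∑_{W ∘ β = P} ord_W f` -/
theorem t3h_ord_norm_beta
    (P : Place Qb ↥(laurentBaseChange Qb (modularFunctionFieldFull N)))
    (f : ↥(laurentBaseChange Qb (modularFunctionFieldFull (N * ℓ)))) (hf : f ≠ 0) :
    P.ord (t3hNormAlong (heckeBetaBar Qb N ℓ) f)
      = ∑ W ∈ Place.fiberAlong (heckeBetaBar Qb N ℓ) (t3h_betaIntegral N ℓ) P, W.ord f :=
  t3h_ord_norm_along (t3h_gen N) (t3h_gen (N * ℓ)) _ _ P f hf

/-- value of `N_α h` at `P` -/
theorem t3h_norm_value_alpha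
    (P : Place Qb ↥(laurentBaseChange Qb (modularFunctionFieldFull N)))
    (h : ↥(laurentBaseChange Qb (modularFunctionFieldFull (N * ℓ))))
    (c : Place Qb ↥(laurentBaseChange Qb (modularFunctionFieldFull (N * ℓ))) → Qb)
    (hc : ∀ W ∈ Place.fiberAlong (heckeAlphaBar Qb N ℓ) (t3h_alphaIntegral N ℓ) P,
      OrdGE W (h - algebraMap Qb _ (c W)) 1) :
    OrdGE P (t3hNormAlong (heckeAlphaBar Qb N ℓ) h
      - algebraMap Qb _ (∏ W ∈ Place.fiberAlong (heckeAlphaBar Qb N ℓ) (t3h_alphaIntegral N ℓ) P,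
          c W ^ W.ramificationIndexAlong (heckeAlphaBar Qb N ℓ))) 1 :=
  t3h_norm_value_along (t3h_gen N) (t3h_gen (N * ℓ)) _ _ P h c hc

/-- value of `N_β h` at `P` -/
theorem t3h_norm_value_beta
    (P : Place Qb ↥(laurentBaseChange Qb (modularFunctionFieldFull N)))
    (h : ↥(laurentBaseChange Qb (modularFunctionFieldFull (N * ℓ))))
    (c : Place Qb ↥(laurentBaseChange Qb (modularFunctionFieldFull (N * ℓ))) → Qb)
    (hc : ∀ W ∈ Place.fiberAlong (heckeBetaBar Qb N ℓ) (t3h_betaIntegral N ℓ) P,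
      OrdGE W (h - algebraMap Qb _ (c W)) 1) :
    OrdGE P (t3hNormAlong (heckeBetaBar Qb N ℓ) h
      - algebraMap Qb _ (∏ W ∈ Place.fiberAlong (heckeBetaBar Qb N ℓ) (t3h_betaIntegral N ℓ) P,
          c W ^ W.ramificationIndexAlong (heckeBetaBar Qb N ℓ))) 1 :=
  t3h_norm_value_along (t3h_gen N) (t3h_gen (N * ℓ)) _ _ P h c hc

end Fermat.Agent.T3
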