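/-
T3 (K), part 2 (helper7): the functional Hecke operator `tkrHecke N ℓ` (T1-K) and the Hecke
correspondence `T_ℓ = α_* β^*` on divisors.

* `t3k_normAlong_alpha_beta`, `t3k_normAlong_beta_alpha` : `N_α (β y) = N_β (α y) = tkrHecke N ℓ y`
  in terms of helper5's `t3hNormAlong`;
* (K4) `t3k_heckeDiv_principal` : `T_ℓ (div y) = div (tkrHecke N ℓ y)`;
* `t3k_ord_hecke` : `ord_P (T y) = ∑_{W ∘ β = P} ord_W (α y)`;
* (K2) `t3k_hecke_regular_noncusp`, `t3k_hecke_regular_cusp`, `t3k_isIntegral_hecke` : `tkrHecke`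
  preserves regularity away from the cusps / at the cusps.
-/
import Mathlib
import Fermat.Agent.Lib.T3.Hecke.Emb
import Fermat.Agent.Lib.T3.Hecke.ModularValue
import Fermat.Agent.Lib.T2.Inst.CuspAL
import Fermat.Agent.Lib.T1.GoodRed.PoleIntP

set_option autoImplicit false
set_option linter.unusedSectionVars false
set_option linter.style.haveILetI false
set_option linter.unusedVariables false

namespace Fermat.Agent.T3

open ModularCurve AlgebraicCurve IntermediateField HahnSeries Module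
open Fermat.Agent.T1 Fermat.Agent.T2 Fermat.Agent.S24Lib Fermat.Agent.Curve
  Fermat.Agent.Curve.PlaceAux

local notation "Qb" => AlgebraicClosure ℚ

variable (N ℓ : ℕ) [NeZero N] [hℓ : Fact ℓ.Prime] (h : ¬ ℓ ∣ N)

include h in
/-- `N_α (β y) = tkrHecke N ℓ y` -/
theorem t3k_normAlong_alpha_beta (y : ↥(modularFunctionFieldBar N)) :
    t3hNormAlong (heckeAlphaBar Qb N ℓ) (heckeBetaBar Qb N ℓ y) = tkrHecke N ℓ y :=
  t3k_norm_eq N ℓ h y

include h in
/-- `N_β (α y) = tkrHecke N ℓ y` -/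
theorem t3k_normAlong_beta_alpha (y : ↥(modularFunctionFieldBar N)) :
    t3hNormAlong (heckeBetaBar Qb N ℓ) (heckeAlphaBar Qb N ℓ y) = tkrHecke N ℓ y :=
  t3k_norm_beta_alpha N ℓ h y

include h in
/-- **(K4)** `T_ℓ (div y) = div (tkrHecke N ℓ y)` -/
theorem t3k_heckeDiv_principal {y : ↥(modularFunctionFieldBar N)} (hy : y ≠ 0)
    {D : Divisor Qb ↥(modularFunctionFieldBar N)} (hD : ∀ v, D v = v.ord y)
    (v : Place Qb ↥(modularFunctionFieldBar N)) :
    heckeDivBar (t3h_alphaIntegral N ℓ) (t3h_betaIntegral N ℓ) D v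
      = v.ord (tkrHecke N ℓ y) := by
  rw [← t3k_norm_eq N ℓ h y]
  have h1 : ∀ w, Divisor.pullbackAlong (heckeBetaBar Qb N ℓ) (t3h_betaIntegral N ℓ) D w
      = w.ord (heckeBetaBar Qb N ℓ y) := by
    intro w
    rw [Divisor.pullbackAlong_apply, hD, ← Place.ord_restrictAlong]
  have hy' : heckeBetaBar Qb N ℓ y ≠ 0 := by
    intro h0
    exact hy ((heckeBetaBar Qb N ℓ).toRingHom.injective (h0.trans (map_zero _).symm))
  exact (t3h_alphaNorm N ℓ) (heckeBetaBar Qb N ℓ y) hy' _ h1 v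

include h in
/-- `ord_P (T y) = ∑_{W ∘ β = P} ord_W (α y)` -/
theorem t3k_ord_hecke {y : ↥(modularFunctionFieldBar N)} (hy : y ≠ 0)
    (P : Place Qb ↥(modularFunctionFieldBar N)) :
    P.ord (tkrHecke N ℓ y)
      = ∑ W ∈ Place.fiberAlong (heckeBetaBar Qb N ℓ) (t3h_betaIntegral N ℓ) P,
          W.ord (heckeAlphaBar Qb N ℓ y) := by
  rw [← t3k_normAlong_beta_alpha N ℓ h y]
  refine t3h_ord_norm_beta N ℓ P _ ?_
  intro h0
  exact hy ((heckeAlphaBar Qb N ℓ).toRingHom.injective (h0.trans (map_zero _).symm))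

theorem t3k_beta_tbJ : heckeBetaBar Qb N ℓ (tbJ N) = t2cpYw N ℓ := Subtype.ext rfl

theorem t3k_alpha_tbJ : heckeAlphaBar Qb N ℓ (tbJ N) = t2cpJ N ℓ := Subtype.ext rfl

include h in
/-- non-cusps go to non-cusps: if `j` is regular at `W ∘ β`, it is regular at `W ∘ α` -/
theorem t3k_ord_alpha_nonneg (W : Place Qb ↥(modularFunctionFieldBar (N * ℓ)))
    (hW : 0 ≤ (W.restrictAlong (heckeBetaBar Qb N ℓ) (t3h_betaIntegral N ℓ)).ord (tbJ N)) :
    0 ≤ (W.restrictAlong (heckeAlphaBar Qb N ℓ) (t3h_alphaIntegral N ℓ)).ord (tbJ N) := by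
  have h1 : 0 ≤ W.ord (t2cpYw N ℓ) := by
    rw [← t3k_beta_tbJ, Place.ord_restrictAlong _ (t3h_betaIntegral N ℓ)]
    exact mul_nonneg (Int.natCast_nonneg _) hW
  have h2 : 0 ≤ W.ord (t2cpJ N ℓ) :=
    ta_ord_nonneg_of_isIntegral (t2cp_isIntegral_J_of_Y N ℓ h) W h1
  rw [← t3k_alpha_tbJ, Place.ord_restrictAlong _ (t3h_alphaIntegral N ℓ)] at h2
  by_contra hneg
  push_neg at hneg
  have hpos : (0 : ℤ) < (W.ramificationIndexAlong (heckeAlphaBar Qb N ℓ) : ℤ) := by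
    letI := algebraAlong (heckeAlphaBar Qb N ℓ)
    haveI := isScalarTower_along (heckeAlphaBar Qb N ℓ)
    haveI := isIntegral_along (heckeAlphaBar Qb N ℓ) (t3h_alphaIntegral N ℓ)
    exact_mod_cast W.ramificationIndex_pos (F := ↥(modularFunctionFieldBar N))
  nlinarith

/-- cusps go to cusps: if `j` has a pole at `W ∘ β`, it has a pole at `W ∘ α` -/
theorem t3k_ord_alpha_neg (W : Place Qb ↥(modularFunctionFieldBar (N * ℓ)))
    (hW : (W.restrictAlong (heckeBetaBar Qb N ℓ) (t3h_betaIntegral N ℓ)).ord (tbJ N) < 0) :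
    (W.restrictAlong (heckeAlphaBar Qb N ℓ) (t3h_alphaIntegral N ℓ)).ord (tbJ N) < 0 := by
  have hposβ : (0 : ℤ) < (W.ramificationIndexAlong (heckeBetaBar Qb N ℓ) : ℤ) := by
    letI := algebraAlong (heckeBetaBar Qb N ℓ)
    haveI := isScalarTower_along (heckeBetaBar Qb N ℓ)
    haveI := isIntegral_along (heckeBetaBar Qb N ℓ) (t3h_betaIntegral N ℓ)
    exact_mod_cast W.ramificationIndex_pos (F := ↥(modularFunctionFieldBar N))
  have h1 : W.ord (t2cpYw N ℓ) < 0 := by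
    rw [← t3k_beta_tbJ, Place.ord_restrictAlong _ (t3h_betaIntegral N ℓ)]
    exact mul_neg_of_pos_of_neg hposβ hW
  by_contra hnn
  push_neg at hnn
  have h2 : 0 ≤ W.ord (t2cpJ N ℓ) := by
    rw [← t3k_alpha_tbJ, Place.ord_restrictAlong _ (t3h_alphaIntegral N ℓ)]
    exact mul_nonneg (Int.natCast_nonneg _) hnn
  have h3 : 0 ≤ W.ord (t2cpYw N ℓ) :=
    ta_ord_nonneg_of_isIntegral (t2cp_isIntegral_Yw N ℓ) W h2
  omega

include h in
/-- **(K2a)** `tkrHecke` preserves regularity away from the cusps -/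
theorem t3k_hecke_regular_noncusp {y : ↥(modularFunctionFieldBar N)}
    (hy : ∀ v : Place Qb ↥(modularFunctionFieldBar N), 0 ≤ v.ord (tbJ N) → 0 ≤ v.ord y)
    (P : Place Qb ↥(modularFunctionFieldBar N)) (hP : 0 ≤ P.ord (tbJ N)) :
    0 ≤ P.ord (tkrHecke N ℓ y) := by
  rcases eq_or_ne y 0 with rfl | hy0
  · rw [map_zero, P.ord_zero]
  rw [t3k_ord_hecke N ℓ h hy0 P]
  refine Finset.sum_nonneg (fun W hW => ?_)
  rw [Place.mem_fiberAlong] at hW
  rw [Place.ord_restrictAlong _ (t3h_alphaIntegral N ℓ)]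
  refine mul_nonneg (Int.natCast_nonneg _) (hy _ ?_)
  exact t3k_ord_alpha_nonneg N ℓ h W (by rw [hW]; exact hP)

include h in
/-- **(K2b)** `tkrHecke` preserves regularity at the cusps -/
theorem t3k_hecke_regular_cusp {y : ↥(modularFunctionFieldBar N)}
    (hy : ∀ v : Place Qb ↥(modularFunctionFieldBar N), v.ord (tbJ N) < 0 → 0 ≤ v.ord y)
    (P : Place Qb ↥(modularFunctionFieldBar N)) (hP : P.ord (tbJ N) < 0) :
    0 ≤ P.ord (tkrHecke N ℓ y) := by
  rcases eq_or_ne y 0 with rfl | hy0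
  · rw [map_zero, P.ord_zero]
  rw [t3k_ord_hecke N ℓ h hy0 P]
  refine Finset.sum_nonneg (fun W hW => ?_)
  rw [Place.mem_fiberAlong] at hW
  rw [Place.ord_restrictAlong _ (t3h_alphaIntegral N ℓ)]
  refine mul_nonneg (Int.natCast_nonneg _) (hy _ ?_)
  exact t3k_ord_alpha_neg N ℓ W (by rw [hW]; exact hP)

include h in
/-- **(K2)** `tkrHecke` preserves integrality over `ℚ̄[j]` -/
theorem t3k_isIntegral_hecke {y : ↥(modularFunctionFieldBar N)}
    (hy : IsIntegral ↥(Algebra.adjoin Qb {tbJ N}) y) :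
    IsIntegral ↥(Algebra.adjoin Qb {tbJ N}) (tkrHecke N ℓ y) := by
  have hgen : IsFunctionFieldGen Qb ↥(modularFunctionFieldBar N) (tbJ N) :=
    isFunctionFieldGen_jBar N
  haveI : CharZero ↥Qb⟮tbJ N⟯ :=
    charZero_of_injective_algebraMap (algebraMap Qb ↥Qb⟮tbJ N⟯).injective
  haveI : FiniteDimensional ↥Qb⟮tbJ N⟯ ↥(modularFunctionFieldBar N) := hgen.finite
  refine ta_isIntegral_of_regular hgen _ (fun v hv => ?_)
  exact t3k_hecke_regular_noncusp N ℓ h
    (fun v' hv' => ta_ord_nonneg_of_isIntegral hy v' hv') v hv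

end Fermat.Agent.T3
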